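import Mathlib

/-!
# M2 / ES: elements of `SL(2, ℤ)` with trace `±2` are `±` conjugates of powers of `T`
-/

set_option autoImplicit false

open Matrix SpecialLinearGroup
open scoped MatrixGroups

namespace Fermat.Agent.M2.ES.Parabolic

/-- an upper triangular element of `SL(2, ℤ)` with upper left entry `1` is a power of `T` -/
theorem eq_T_zpow_of_entries (M : SL(2, ℤ)) (h10 : M 1 0 = 0) (h00 : M 0 0 = 1) :
    M = ModularGroup.T ^ (M 0 1) := by
  have hdet := Matrix.SpecialLinearGroup.det_coe M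
  rw [Matrix.det_fin_two] at hdet
  have h11 : M 1 1 = 1 := by
    have h00' : (M : Matrix (Fin 2) (Fin 2) ℤ) 0 0 = 1 := h00
    have h10' : (M : Matrix (Fin 2) (Fin 2) ℤ) 1 0 = 0 := h10
    rw [h00', h10'] at hdet
    simpa using hdet
  ext i j
  rw [ModularGroup.coe_T_zpow]
  fin_cases i <;> fin_cases j <;> simp [h10, h00, h11]

/-- a primitive fixed vector gives a conjugation to a power of `T` -/
theorem exists_conj_of_fixed_vector (γ : SL(2, ℤ)) (p q : ℤ) (hpq : IsCoprime p q)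
    (h0 : γ 0 0 * p + γ 0 1 * q = p) (h1 : γ 1 0 * p + γ 1 1 * q = q) :
    ∃ (δ : SL(2, ℤ)) (m : ℤ), γ = δ * ModularGroup.T ^ m * δ⁻¹ := by
  obtain ⟨δ, hδ0, hδ1⟩ := hpq.exists_SL2_col 0
  have hδdet := Matrix.SpecialLinearGroup.det_coe δ
  rw [Matrix.det_fin_two] at hδdet
  set M : SL(2, ℤ) := δ⁻¹ * γ * δ with hM
  have hgrp : δ * M = γ * δ := by rw [hM]; group
  have hmat : (δ : Matrix (Fin 2) (Fin 2) ℤ) * (M : Matrix (Fin 2) (Fin 2) ℤ)
      = (γ : Matrix (Fin 2) (Fin 2) ℤ) * (δ : Matrix (Fin 2) (Fin 2) ℤ) := by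
    rw [← Matrix.SpecialLinearGroup.coe_mul, ← Matrix.SpecialLinearGroup.coe_mul, hgrp]
  have e0 : (δ : Matrix (Fin 2) (Fin 2) ℤ) 0 0 = p := hδ0
  have e1 : (δ : Matrix (Fin 2) (Fin 2) ℤ) 1 0 = q := hδ1
  have h0' : (γ : Matrix (Fin 2) (Fin 2) ℤ) 0 0 * p + (γ : Matrix (Fin 2) (Fin 2) ℤ) 0 1 * q = p :=
    h0
  have h1' : (γ : Matrix (Fin 2) (Fin 2) ℤ) 1 0 * p + (γ : Matrix (Fin 2) (Fin 2) ℤ) 1 1 * q = q :=
    h1
  have E00 := congrFun (congrFun hmat 0) 0
  have E10 := congrFun (congrFun hmat 1) 0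
  simp only [Matrix.mul_apply, Fin.sum_univ_two] at E00 E10
  rw [e0, e1] at E00 E10 hδdet
  rw [h0'] at E00
  rw [h1'] at E10
  have h10 : M 1 0 = 0 := by
    show (M : Matrix (Fin 2) (Fin 2) ℤ) 1 0 = 0
    linear_combination (-q) * E00 + p * E10 - (M : Matrix (Fin 2) (Fin 2) ℤ) 1 0 * hδdet
  have h00 : M 0 0 = 1 := by
    show (M : Matrix (Fin 2) (Fin 2) ℤ) 0 0 = 1
    linear_combination (δ.1 1 1) * E00 - (δ.1 0 1) * E10
      + (1 - (M : Matrix (Fin 2) (Fin 2) ℤ) 0 0) * hδdet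
  refine ⟨δ, M 0 1, ?_⟩
  rw [← eq_T_zpow_of_entries M h10 h00, hM]
  group

/-- elements of trace `2` are conjugates of powers of `T` -/
theorem exists_conj_of_trace_two (γ : SL(2, ℤ))
    (h : (γ : Matrix (Fin 2) (Fin 2) ℤ).trace = 2) :
    ∃ (δ : SL(2, ℤ)) (m : ℤ), γ = δ * ModularGroup.T ^ m * δ⁻¹ := by
  rw [Matrix.trace_fin_two] at h
  have hdet := Matrix.SpecialLinearGroup.det_coe γ
  rw [Matrix.det_fin_two] at hdet
  set a := (γ : Matrix (Fin 2) (Fin 2) ℤ) 0 0 with ha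
  set b := (γ : Matrix (Fin 2) (Fin 2) ℤ) 0 1 with hb
  set c := (γ : Matrix (Fin 2) (Fin 2) ℤ) 1 0 with hc
  set d := (γ : Matrix (Fin 2) (Fin 2) ℤ) 1 1 with hd
  by_cases hc0 : c = 0
  · -- upper triangular
    have had : a * d = 1 := by rw [hc0] at hdet; linear_combination hdet
    have ha1 : a = 1 := by
      have : (a - 1) ^ 2 = 0 := by linear_combination (-1 : ℤ) * had + a * h
      have := pow_eq_zero_iff (two_ne_zero) |>.mp this
      linarith
    have hd1 : d = 1 := by rw [ha1] at h; linarith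
    refine exists_conj_of_fixed_vector γ 1 0 isCoprime_one_left ?_ ?_
    · show a * 1 + b * 0 = 1
      rw [ha1]; ring
    · show c * 1 + d * 0 = 0
      rw [hc0]; ring
  · -- fixed vector `(a - 1, c) / gcd`
    have hg : 0 < Int.gcd (a - 1) c := Int.gcd_pos_of_ne_zero_right _ hc0
    obtain ⟨p, q, hpq, hp, hq⟩ := Int.exists_gcd_one hg
    set g : ℤ := (Int.gcd (a - 1) c : ℤ) with hgdef
    have hg0 : g ≠ 0 := by rw [hgdef]; exact_mod_cast hg.ne'
    refine exists_conj_of_fixed_vector γ p q (Int.isCoprime_iff_gcd_eq_one.mpr hpq) ?_ ?_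
    · show a * p + b * q = p
      have : g * (a * p + b * q - p) = 0 := by
        have e1 : g * p = a - 1 := by rw [hp]; ring
        have e2 : g * q = c := by rw [hq]; ring
        calc g * (a * p + b * q - p) = (a - 1) * (g * p) + b * (g * q) := by ring
          _ = (a - 1) * (a - 1) + b * c := by rw [e1, e2]
          _ = 0 := by linear_combination (-1 : ℤ) * hdet + a * h
      have := (mul_eq_zero.mp this).resolve_left hg0
      linarith
    · show c * p + d * q = q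
      have : g * (c * p + d * q - q) = 0 := by
        have e1 : g * p = a - 1 := by rw [hp]; ring
        have e2 : g * q = c := by rw [hq]; ring
        calc g * (c * p + d * q - q) = c * (g * p) + (d - 1) * (g * q) := by ring
          _ = c * (a - 1) + (d - 1) * c := by rw [e1, e2]
          _ = 0 := by linear_combination c * h
      have := (mul_eq_zero.mp this).resolve_left hg0
      linarith

/-- elements of `SL(2, ℤ)` whose trace squares to `4` are `±` conjugates of powers of `T` -/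
theorem exists_conj_T_zpow (γ : SL(2, ℤ))
    (h : (γ : Matrix (Fin 2) (Fin 2) ℤ).trace ^ 2 = 4) :
    ∃ (δ : SL(2, ℤ)) (m : ℤ), γ = δ * ModularGroup.T ^ m * δ⁻¹ ∨
      γ = -(δ * ModularGroup.T ^ m * δ⁻¹) := by
  have h2 : (γ : Matrix (Fin 2) (Fin 2) ℤ).trace = 2 ∨
      (γ : Matrix (Fin 2) (Fin 2) ℤ).trace = -2 := by
    have : ((γ : Matrix (Fin 2) (Fin 2) ℤ).trace - 2) *
        ((γ : Matrix (Fin 2) (Fin 2) ℤ).trace + 2) = 0 := by linear_combination h
    rcases mul_eq_zero.mp this with h' | h'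
    · left; linarith
    · right; linarith
  rcases h2 with h2 | h2
  · obtain ⟨δ, m, hδ⟩ := exists_conj_of_trace_two γ h2
    exact ⟨δ, m, Or.inl hδ⟩
  · have hneg : ((-γ : SL(2, ℤ)) : Matrix (Fin 2) (Fin 2) ℤ).trace = 2 := by
      rw [Matrix.SpecialLinearGroup.coe_neg, Matrix.trace_neg, h2]; norm_num
    obtain ⟨δ, m, hδ⟩ := exists_conj_of_trace_two (-γ) hneg
    refine ⟨δ, m, Or.inr ?_⟩
    rw [← hδ, neg_neg]

end Fermat.Agent.M2.ES.Parabolic
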