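import Fermat.Agent.S22.Eichler
import Fermat.Agent.S22.CuspPeriodic
import Fermat.Agent.M2.ES.Parabolic
import Fermat.Prelude.Def_ModularCurve_PeriodHomPair

/-!
# M2 / ES1: the primitive of a weight-2 cusp form, its periods and the linear period map
-/

set_option autoImplicit false

open UpperHalfPlane hiding I
open Function Complex Filter Topology CongruenceSubgroup
open scoped Real Manifold MatrixGroups ModularForm
open Derivative

namespace Fermat.Agent.M2.ES

open Fermat.Agent.S22 ModularCurve ModularCurve.Period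

section general

/-- weight-0 slash is composition -/
theorem slash_zero_apply (F : ℍ → ℂ) (γ : SL(2, ℤ)) (z : ℍ) : (F ∣[(0 : ℤ)] γ) z = F (γ • z) := by
  rw [ModularForm.SL_slash_apply]; simp

theorem slash_zero_eq (F : ℍ → ℂ) (γ : SL(2, ℤ)) : F ∣[(0 : ℤ)] γ = fun z => F (γ • z) :=
  funext (slash_zero_apply F γ)

theorem mdiff_comp_smul {F : ℍ → ℂ} (hF : MDiff F) (γ : SL(2, ℤ)) :
    MDiff (fun z : ℍ => F (γ • z)) := by
  rw [← slash_zero_eq, ModularForm.SL_slash]
  exact hF.slash _ _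

/-- Two holomorphic functions on `ℍ` with the same derivative differ by a constant. -/
theorem exists_const_of_D_eq {A B : ℍ → ℂ} (hA : MDiff A) (hB : MDiff B) (h : D A = D B) :
    ∃ c : ℂ, ∀ z, A z = B z + c := by
  have h0 : D (A - B) = 0 := by
    have := Eichler.iterate_D_sub hA hB 1
    simp only [Function.iterate_one] at this
    rw [this, h, sub_self]
  obtain ⟨c, hc⟩ := exists_const_of_D_eq_zero (hA.sub hB) h0
  exact ⟨c, fun z => by have := hc z; simp only [Pi.sub_apply] at this; rw [← this]; ring⟩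

/-- chain rule for Möbius transformations (Bol's identity in weight `0`) -/
theorem D_comp_smul {E : ℍ → ℂ} (hE : MDiff E) (δ : SL(2, ℤ)) :
    D (fun z : ℍ => E (δ • z)) = (D E) ∣[(2 : ℤ)] δ := by
  have h := bol_SL' δ hE 0
  simp only [Nat.cast_zero, neg_zero, zero_add, Function.iterate_one] at h
  rw [← slash_zero_eq]
  exact h

end general

section prim

variable (N : ℕ) [NeZero N]

local notation "S₂" => CuspForm (Gamma0 N) 2

/-- the primitive of a weight-2 cusp form which vanishes at `i∞` -/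
noncomputable def prim (f : S₂) : ℍ → ℂ := eichlerFun N 0 f

theorem mdiff_prim (f : S₂) : MDiff (prim N f) := mdiff_eichlerFun N 0 f

theorem periodic_prim (f : S₂) : Periodic (prim N f ∘ ofComplex) 1 := periodic_eichlerFun N 0 f

theorem isZeroAtImInfty_prim (f : S₂) : IsZeroAtImInfty (prim N f) :=
  isZeroAtImInfty_eichlerFun N 0 f

theorem tendsto_prim (f : S₂) : Tendsto (prim N f) atImInfty (𝓝 0) := isZeroAtImInfty_prim N f

theorem hasDerivAt_prim (f : S₂) (τ : ℍ) : HasDerivAt (prim N f ∘ ofComplex) (f τ) τ := by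
  have h1 := iteratedDeriv_eichlerFun N 0 f τ
  rw [zero_add, iteratedDeriv_one] at h1
  have hd : DifferentiableAt ℂ (prim N f ∘ ofComplex) τ :=
    (Eichler.contDiffAt_comp_ofComplex (mdiff_prim N f) 1 τ).differentiableAt (by norm_num)
  have := hd.hasDerivAt
  rw [show deriv (prim N f ∘ ofComplex) τ = f τ from h1] at this
  exact this

theorem D_prim (f : S₂) : D (prim N f) = (2 * π * I : ℂ)⁻¹ • (f : ℍ → ℂ) :=
  D_eq_of_hasDerivAt (hasDerivAt_prim N f)

/-- the primitive as a linear map -/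
noncomputable def primLin : S₂ →ₗ[ℂ] (ℍ → ℂ) := eichlerIntegral N 0

@[simp] theorem primLin_apply (f : S₂) : primLin N f = prim N f := rfl

theorem prim_add (f g : S₂) : prim N (f + g) = prim N f + prim N g := (primLin N).map_add f g

theorem prim_smul (c : ℂ) (f : S₂) : prim N (c • f) = c • prim N f := (primLin N).map_smul c f

theorem prim_sub (f g : S₂) : prim N (f - g) = prim N f - prim N g := (primLin N).map_sub f g

theorem prim_neg (f : S₂) : prim N (-f) = -prim N f := (primLin N).map_neg f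

theorem prim_zero : prim N (0 : S₂) = 0 := (primLin N).map_zero

omit [NeZero N] in
theorem slash_eq_self (f : S₂) {γ : SL(2, ℤ)} (hγ : γ ∈ Gamma0 N) :
    (f : ℍ → ℂ) ∣[(2 : ℤ)] γ = f :=
  Eichler.slash_eq_self N 0 f hγ

/-- At every cusp, the primitive is a decaying `N`-periodic function plus a constant. -/
theorem prim_smul_SL (f : S₂) (δ : SL(2, ℤ)) :
    ∃ (E : ℍ → ℂ) (L : ℂ), MDiff E ∧ Periodic (E ∘ ofComplex) (N : ℝ) ∧ IsZeroAtImInfty E ∧
      ∀ z : ℍ, prim N f (δ • z) = E z + L := by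
  have hN : (0 : ℝ) < N := Nat.cast_pos.mpr (NeZero.pos N)
  have hol : MDiff ((f : ℍ → ℂ) ∣[(2 : ℤ)] δ) := by
    rw [ModularForm.SL_slash]; exact (CuspFormClass.holo f).slash _ _
  have per : Periodic (((f : ℍ → ℂ) ∣[(2 : ℤ)] δ) ∘ ofComplex) (N : ℝ) :=
    H15.periodic_comp_ofComplex_slash_of_invariant N 2 f (fun γ hγ => slash_eq_self N f hγ) δ
  have zero : IsZeroAtImInfty ((f : ℍ → ℂ) ∣[(2 : ℤ)] δ) := CuspFormClass.zero_at_infty_slash f δ
  obtain ⟨E, hE, hEper, hE0, hEder⟩ := eichler_exists 1 hN _ hol per zero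
  have hDE : D E = (2 * π * I : ℂ)⁻¹ • ((f : ℍ → ℂ) ∣[(2 : ℤ)] δ) := by
    ext z
    have := iterate_D_eq_iteratedDeriv E 1 z
    rw [Function.iterate_one, hEder z, pow_one] at this
    rw [this]; rfl
  have hD2 : D (fun z : ℍ => prim N f (δ • z)) = D E := by
    rw [D_comp_smul (mdiff_prim N f) δ, D_prim, hDE, ModularForm.SL_smul_slash]
  obtain ⟨L, hL⟩ := exists_const_of_D_eq (mdiff_comp_smul (mdiff_prim N f) δ) hE hD2
  exact ⟨E, L, hE, hEper, hE0, hL⟩

theorem isEquivariantPrimitive_prim (f : S₂) :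
    IsEquivariantPrimitive (Gamma0 N) (prim N f) := by
  intro γ
  have hD : D (fun z : ℍ => prim N f ((γ : SL(2, ℤ)) • z)) = D (prim N f) := by
    rw [D_comp_smul (mdiff_prim N f) γ, D_prim, ModularForm.SL_smul_slash,
      slash_eq_self N f γ.2]
  obtain ⟨c, hc⟩ := exists_const_of_D_eq (mdiff_comp_smul (mdiff_prim N f) γ) (mdiff_prim N f) hD
  exact ⟨c, fun z => by rw [hc z]; ring⟩

theorem hasEquivariantPrimitive_prim (f : S₂) : HasEquivariantPrimitive N f (prim N f) := by
  refine ⟨hasDerivAt_prim N f, tendsto_prim N f, isEquivariantPrimitive_prim N f, fun δ => ?_⟩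
  obtain ⟨E, L, -, -, hE0, hEL⟩ := prim_smul_SL N f δ
  refine ⟨L, ?_⟩
  have : (fun w : ℍ => prim N f (δ • w)) = fun w => E w + L := funext hEL
  rw [this]
  simpa using (hE0 : Tendsto E atImInfty (𝓝 0)).add_const L

/-- the period homomorphism of a cusp form -/
noncomputable def pmlFun (f : S₂) : Additive (Gamma0 N) →+ ℂ :=
  (isEquivariantPrimitive_prim N f).periodHom

theorem pmlFun_apply (f : S₂) (γ : Gamma0 N) (z : ℍ) :
    pmlFun N f (Additive.ofMul γ) = prim N f ((γ : SL(2, ℤ)) • z) - prim N f z :=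
  ((isEquivariantPrimitive_prim N f).sub_eq_period γ z).symm

/-- the period map, as a linear map -/
noncomputable def pml : S₂ →ₗ[ℂ] (Additive (Gamma0 N) →+ ℂ) where
  toFun := pmlFun N
  map_add' f g := by
    refine AddMonoidHom.ext fun γ => ?_
    obtain ⟨γ, rfl⟩ := Additive.ofMul.surjective γ
    rw [AddMonoidHom.add_apply, pmlFun_apply N _ γ UpperHalfPlane.I,
      pmlFun_apply N _ γ UpperHalfPlane.I, pmlFun_apply N _ γ UpperHalfPlane.I, prim_add]
    simp only [Pi.add_apply]; ring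
  map_smul' c f := by
    refine AddMonoidHom.ext fun γ => ?_
    obtain ⟨γ, rfl⟩ := Additive.ofMul.surjective γ
    rw [AddMonoidHom.smul_apply, RingHom.id_apply, pmlFun_apply N _ γ UpperHalfPlane.I,
      pmlFun_apply N _ γ UpperHalfPlane.I, prim_smul]
    simp only [Pi.smul_apply, smul_eq_mul]; ring

theorem pml_apply (f : S₂) (γ : Gamma0 N) (z : ℍ) :
    pml N f (Additive.ofMul γ) = prim N f ((γ : SL(2, ℤ)) • z) - prim N f z :=
  pmlFun_apply N f γ z

omit [NeZero N] in
theorem mdiff_of_hasDerivAt {F G : ℍ → ℂ} (h : ∀ τ : ℍ, HasDerivAt (F ∘ ofComplex) (G τ) τ) :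
    MDiff F := by
  rw [UpperHalfPlane.mdifferentiable_iff]
  intro z hz
  exact (h ⟨z, hz⟩).differentiableAt.differentiableWithinAt

theorem pml_eq_periodMap (f : S₂) : pml N f = periodMap N f := by
  obtain ⟨F₀, h₀, hF₀⟩ := periodMap_def N f (hasEquivariantPrimitive_prim N f)
  rw [hF₀]
  refine AddMonoidHom.ext fun γ => ?_
  obtain ⟨γ, rfl⟩ := Additive.ofMul.surjective γ
  rw [IsEquivariantPrimitive.periodHom_apply, pml_apply N f γ UpperHalfPlane.I]
  have hF₀m : MDiff F₀ := mdiff_of_hasDerivAt h₀.1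
  have hD : D F₀ = D (prim N f) := by
    rw [D_eq_of_hasDerivAt h₀.1, D_prim]
  obtain ⟨c, hc⟩ := exists_const_of_D_eq hF₀m (mdiff_prim N f) hD
  unfold IsEquivariantPrimitive.period
  rw [hc, hc]; ring

theorem existsPeriodMapLinear : ExistsPeriodMapLinear N :=
  ⟨pml N, pml_eq_periodMap N⟩

theorem periodHomPair_eq :
    periodHomPair N = LinearMap.coprod
      ((LinearMap.id + charInvolution N ℂ ℂ) ∘ₗ pml N)
      ((LinearMap.id - charInvolution N ℂ ℂ) ∘ₗ pml N) := by
  obtain ⟨p, hp, h⟩ := periodHomPair_def N (existsPeriodMapLinear N)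
  have : p = pml N := LinearMap.ext fun f => by rw [hp f, pml_eq_periodMap]
  rw [h, this]

omit [NeZero N] in
theorem tendsto_vadd_atImInfty (x : ℝ) :
    Tendsto (fun w : ℍ => x +ᵥ w) atImInfty atImInfty := by
  rw [atImInfty, tendsto_comap_iff]
  have : (UpperHalfPlane.im ∘ fun w : ℍ => x +ᵥ w) = UpperHalfPlane.im := by
    ext w; simp [UpperHalfPlane.vadd_im]
  rw [this]
  exact tendsto_comap

/-- periods along parabolic elements vanish -/
theorem pml_mem_parabolicHoms (f : S₂) : pml N f ∈ parabolicHoms ℂ (Gamma0 N) ℂ := by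
  rw [mem_parabolicHoms_iff]
  intro γ hγ
  obtain ⟨δ, m, hδ⟩ := Parabolic.exists_conj_T_zpow (γ : SL(2, ℤ)) hγ
  obtain ⟨E, L, -, -, hE0, hEL⟩ := prim_smul_SL N f δ
  have key : ∀ w : ℍ, pml N f (Additive.ofMul γ) = E ((m : ℝ) +ᵥ w) - E w := by
    intro w
    rw [pml_apply N f γ (δ • w)]
    have : ((γ : SL(2, ℤ)) • δ • w) = δ • ((m : ℝ) +ᵥ w) := by
      rcases hδ with h | h
      · rw [h, mul_smul, mul_smul, inv_smul_smul, modular_T_zpow_smul]
      · rw [h, ModularGroup.SL_neg_smul, mul_smul, mul_smul, inv_smul_smul, modular_T_zpow_smul]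
    rw [this, hEL, hEL]; ring
  have hlim : Tendsto (fun w : ℍ => E ((m : ℝ) +ᵥ w) - E w) atImInfty (𝓝 0) := by
    have h1 : Tendsto (fun w : ℍ => E ((m : ℝ) +ᵥ w)) atImInfty (𝓝 0) :=
      (hE0 : Tendsto E atImInfty (𝓝 0)).comp (tendsto_vadd_atImInfty (m : ℝ))
    simpa using h1.sub (hE0 : Tendsto E atImInfty (𝓝 0))
  have hconst : Tendsto (fun _ : ℍ => pml N f (Additive.ofMul γ)) atImInfty
      (𝓝 (pml N f (Additive.ofMul γ))) := tendsto_const_nhds
  exact tendsto_nhds_unique (hconst.congr key) hlim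

theorem range_periodHomPair_le :
    LinearMap.range (periodHomPair N) ≤ parabolicHoms ℂ (Gamma0 N) ℂ := by
  rintro _ ⟨⟨f, g⟩, rfl⟩
  rw [periodHomPair_eq, LinearMap.coprod_apply]
  refine Submodule.add_mem _ ?_ ?_
  · simp only [LinearMap.comp_apply, LinearMap.add_apply, LinearMap.id_apply]
    exact Submodule.add_mem _ (pml_mem_parabolicHoms N f)
      (charInvolution_mem_parabolicHoms N ℂ ℂ (pml_mem_parabolicHoms N f))
  · simp only [LinearMap.comp_apply, LinearMap.sub_apply, LinearMap.id_apply]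
    exact Submodule.sub_mem _ (pml_mem_parabolicHoms N g)
      (charInvolution_mem_parabolicHoms N ℂ ℂ (pml_mem_parabolicHoms N g))

end prim

end Fermat.Agent.M2.ES
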