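import Mathlib

/-!
# M2 / IS2 (abstract part): integral structures from a discrete stable lattice of functionals

Pure linear algebra.  `V` is a complex vector space, `𝕋 ⊆ End_ℂ V` a commutative `ℤ`-subalgebra
which is a finitely generated `ℤ`-module, `L ⊆ V^*` a finitely generated `𝕋`-stable, point
separating `ℤ`-lattice which is *discrete* (a `ℤ`-basis is `ℝ`-linearly independent), `κ` a
conjugate-linear surjection commuting with `𝕋`, and `a₁` a linear functional such that the
pairing `(t, v) ↦ a₁ (t v)` is non-degenerate on the right.  Then `V` is spanned by the vectors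
`v` all of whose "coefficients" `a₁ (t v)`, `t ∈ 𝕋`, are integers.
-/

set_option autoImplicit false

open TensorProduct

namespace Fermat.Agent.M2.ES.IntAbs

/-- `ℤ`-linearly independent integer vectors are `ℝ`-linearly independent (flatness). -/
theorem linearIndependent_real_of_int {ι κ : Type*} [Fintype κ] [DecidableEq κ]
    (A : ι → κ → ℤ) (hA : LinearIndependent ℤ A) :
    LinearIndependent ℝ (fun i => (fun k => (A i k : ℝ))) := by
  have h1 : LinearIndependent ℝ (fun i => (1 : ℝ) ⊗ₜ[ℤ] A i) :=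
    Module.Flat.linearIndependent_one_tmul hA
  have h2 := h1.map' (TensorProduct.piScalarRight ℤ ℝ ℝ κ).toLinearMap
    (LinearEquiv.ker _)
  have : (fun i => (fun k => (A i k : ℝ))) =
      (⇑(TensorProduct.piScalarRight ℤ ℝ ℝ κ).toLinearMap ∘ fun i => (1 : ℝ) ⊗ₜ[ℤ] A i) := by
    ext i k
    simp [TensorProduct.piScalarRight_apply, TensorProduct.piScalarRightHom_tmul]
  rw [this]
  exact h2

variable {V : Type*} [AddCommGroup V] [Module ℂ V]

theorem isTorsionFree_int : Module.IsTorsionFree ℤ V :=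
  Module.IsTorsionFree.trans (S := ℤ) (R := ℂ) (M := V)

theorem real_smul_dual (x : ℝ) (l : Module.Dual ℂ V) : (x : ℂ) • l = x • l := by
  ext v
  simp

theorem dual_comp_sum {ι : Type*} (s : Finset ι) (l : Module.Dual ℂ V)
    (f : ι → Module.End ℂ V) : l.comp (∑ i ∈ s, f i) = ∑ i ∈ s, l.comp (f i) := by
  ext v
  simp [LinearMap.sum_apply, map_sum]

/-- Step B2: real-linear independence of a `ℤ`-independent family of endomorphisms whose
transposes preserve a discrete separating lattice. -/
theorem real_independent {r m : ℕ} (τ : Fin r → Module.End ℂ V) (β : Fin m → Module.Dual ℂ V)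
    (hβ : LinearIndependent ℝ β) (A : Fin r → Fin m → Fin m → ℤ)
    (hA : ∀ i a, (β a).comp (τ i) = ∑ b, (A i a b) • β b)
    (hsep : ∀ v : V, (∀ a, β a v = 0) → v = 0)
    (hτ : LinearIndependent ℤ τ)
    (x : Fin r → ℝ) (hx : ∑ i, ((x i : ℝ) : ℂ) • τ i = 0) : x = 0 := by
  classical
  -- the integer vectors
  set A' : Fin r → (Fin m × Fin m) → ℤ := fun i ab => A i ab.1 ab.2 with hA'
  have hAind : LinearIndependent ℤ A' := by
    rw [Fintype.linearIndependent_iff]
    intro n hn
    have hn' : ∀ a b, ∑ i, n i * A i a b = 0 := by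
      intro a b
      have := congrFun hn (a, b)
      simpa [hA', Finset.sum_apply] using this
    have hzero : ∑ i, n i • τ i = 0 := by
      ext v
      refine hsep _ fun a => ?_
      have h1 : β a ((∑ i, n i • τ i) v) = ((β a).comp (∑ i, n i • τ i)) v := rfl
      rw [h1, dual_comp_sum]
      simp only [LinearMap.comp_smul, hA, LinearMap.sum_apply, LinearMap.smul_apply,
        Finset.smul_sum, smul_smul]
      rw [Finset.sum_comm]
      have : ∀ b, ∑ i, (n i * A i a b) • (β b) v = 0 := by
        intro b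
        rw [← Finset.sum_smul, hn' a b, zero_smul]
      exact Finset.sum_eq_zero fun b _ => this b
    exact Fintype.linearIndependent_iff.mp hτ n hzero
  have hreal := linearIndependent_real_of_int A' hAind
  rw [Fintype.linearIndependent_iff] at hreal
  -- the real relation
  have hrel : ∀ a b, ∑ i, x i * (A i a b : ℝ) = 0 := by
    intro a
    have h0 : (β a).comp (∑ i, ((x i : ℝ) : ℂ) • τ i) = 0 := by rw [hx, LinearMap.comp_zero]
    rw [dual_comp_sum] at h0
    simp only [LinearMap.comp_smul, hA, real_smul_dual] at h0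
    have h1 : ∑ b, (∑ i, x i * (A i a b : ℝ)) • β b = 0 := by
      rw [← h0]
      simp only [Finset.smul_sum, Finset.sum_smul]
      rw [Finset.sum_comm]
      refine Finset.sum_congr rfl fun i _ => Finset.sum_congr rfl fun b _ => ?_
      rw [mul_smul]
      congr 1
      ext v
      simp
    exact Fintype.linearIndependent_iff.mp hβ _ h1
  funext i
  refine hreal x ?_ i
  ext ab
  simp only [Finset.sum_apply, Pi.smul_apply, smul_eq_mul, Pi.zero_apply]
  exact hrel ab.1 ab.2

/-- Step B: complex-linear independence, using a conjugate-linear structure commuting with the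
operators. -/
theorem complex_independent {r m : ℕ} (τ : Fin r → Module.End ℂ V) (β : Fin m → Module.Dual ℂ V)
    (hβ : LinearIndependent ℝ β) (A : Fin r → Fin m → Fin m → ℤ)
    (hA : ∀ i a, (β a).comp (τ i) = ∑ b, (A i a b) • β b)
    (hsep : ∀ v : V, (∀ a, β a v = 0) → v = 0)
    (hτ : LinearIndependent ℤ τ)
    (κ : V → V) (hκadd : ∀ v w, κ (v + w) = κ v + κ w)
    (hκsmul : ∀ (c : ℂ) (v : V), κ (c • v) = (starRingEnd ℂ) c • κ v)
    (hκsurj : Function.Surjective κ) (hκcomm : ∀ i v, κ (τ i v) = τ i (κ v)) :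
    LinearIndependent ℂ τ := by
  rw [Fintype.linearIndependent_iff]
  intro c hc
  -- `κ` as an additive map
  have hκ0 : κ 0 = 0 := by
    have := hκadd 0 0
    rw [add_zero] at this
    exact left_eq_add.mp this
  let κ' : V →+ V := ⟨⟨κ, hκ0⟩, hκadd⟩
  have hconj : ∑ i, (starRingEnd ℂ) (c i) • τ i = 0 := by
    ext w
    obtain ⟨v, rfl⟩ := hκsurj w
    simp only [LinearMap.sum_apply, LinearMap.smul_apply, LinearMap.zero_apply]
    have h1 : ∀ i, (starRingEnd ℂ) (c i) • τ i (κ v) = κ' (c i • τ i v) := by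
      intro i
      show _ = κ (c i • τ i v)
      rw [hκsmul, hκcomm]
    simp only [h1]
    rw [← map_sum]
    have h2 : ∑ i, c i • τ i v = (∑ i, c i • τ i) v := by
      simp [LinearMap.sum_apply]
    rw [h2, hc]
    simp
  have hre : (fun i => (c i).re) = 0 := by
    refine real_independent τ β hβ A hA hsep hτ _ ?_
    have : ∑ i, (((c i).re : ℝ) : ℂ) • τ i
        = (1 / 2 : ℂ) • (∑ i, c i • τ i + ∑ i, (starRingEnd ℂ) (c i) • τ i) := by
      rw [← Finset.sum_add_distrib, Finset.smul_sum]
      refine Finset.sum_congr rfl fun i _ => ?_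
      rw [← add_smul, smul_smul]
      congr 1
      rw [Complex.add_conj]
      push_cast; ring
    rw [this, hc, hconj, add_zero, smul_zero]
  have him : (fun i => (c i).im) = 0 := by
    refine real_independent τ β hβ A hA hsep hτ _ ?_
    have : ∑ i, (((c i).im : ℝ) : ℂ) • τ i
        = (-Complex.I / 2 : ℂ) • (∑ i, c i • τ i - ∑ i, (starRingEnd ℂ) (c i) • τ i) := by
      rw [← Finset.sum_sub_distrib, Finset.smul_sum]
      refine Finset.sum_congr rfl fun i _ => ?_
      rw [← sub_smul, smul_smul]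
      congr 1
      rw [Complex.sub_conj]
      push_cast
      ring_nf
      rw [Complex.I_sq]; ring
    rw [this, hc, hconj, sub_zero, smul_zero]
  intro i
  apply Complex.ext
  · simpa using congrFun hre i
  · simpa using congrFun him i

/-- Steps C and D: a commuting `ℂ`-independent family of operators for which the pairing
`(i, v) ↦ a₁ (τ i v)` is right non-degenerate admits a dual family of vectors spanning `V`. -/
theorem exists_dual_family {r : ℕ} (τ : Fin r → Module.End ℂ V) (hτ : LinearIndependent ℂ τ)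
    (hcomm : ∀ i j, τ i * τ j = τ j * τ i)
    (a₁ : Module.Dual ℂ V) (hnd : ∀ v : V, (∀ i, a₁ (τ i v) = 0) → v = 0) :
    ∃ w : Fin r → V, (∀ i j, a₁ (τ i (w j)) = if i = j then 1 else 0) ∧
      Submodule.span ℂ (Set.range w) = ⊤ := by
  classical
  set φ : Fin r → Module.Dual ℂ V := fun i => a₁.comp (τ i) with hφ
  -- the functionals are independent
  have hφind : LinearIndependent ℂ φ := by
    rw [Fintype.linearIndependent_iff]
    intro c hc
    set t : Module.End ℂ V := ∑ i, c i • τ i with ht
    have htcomm : ∀ j, τ j * t = t * τ j := by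
      intro j
      rw [ht, Finset.mul_sum, Finset.sum_mul]
      refine Finset.sum_congr rfl fun i _ => ?_
      rw [mul_smul_comm, smul_mul_assoc, hcomm]
    have ht0 : t = 0 := by
      ext v
      refine hnd _ fun j => ?_
      have h1 : τ j (t v) = t (τ j v) := by
        have := congrArg (fun f : Module.End ℂ V => f v) (htcomm j)
        simpa [Module.End.mul_apply] using this
      rw [h1, ht]
      have h2 : a₁ ((∑ i, c i • τ i) (τ j v)) = (∑ i, c i • φ i) (τ j v) := by
        simp [LinearMap.sum_apply, hφ, map_sum]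
      rw [h2, hc]
      simp
    exact Fintype.linearIndependent_iff.mp hτ c ht0
  -- the evaluation map
  set Θ : V →ₗ[ℂ] (Fin r → ℂ) := LinearMap.pi φ with hΘ
  have hΘapply : ∀ v i, Θ v i = a₁ (τ i v) := fun v i => rfl
  have hΘinj : Function.Injective Θ := by
    rw [← LinearMap.ker_eq_bot, LinearMap.ker_eq_bot']
    intro v hv
    exact hnd v fun i => by rw [← hΘapply, hv]; rfl
  have hΘsurj : Function.Surjective Θ := by
    rw [← LinearMap.range_eq_top]
    by_contra hne
    obtain ⟨f, hf0, hf⟩ := (LinearMap.range Θ).exists_le_ker_of_lt_top (lt_top_iff_ne_top.mpr hne)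
    apply hf0
    have hc : ∑ i, f (Pi.single i 1) • φ i = 0 := by
      ext v
      have hv : f (Θ v) = 0 := hf (LinearMap.mem_range_self Θ v)
      have hsum : Θ v = ∑ i, (Θ v i) • (Pi.single i (1 : ℂ) : Fin r → ℂ) := by
        ext j
        simp [Finset.sum_apply, Pi.single_apply]
      rw [hsum, map_sum] at hv
      simp only [map_smul, smul_eq_mul] at hv
      simp only [LinearMap.sum_apply, LinearMap.smul_apply, smul_eq_mul, LinearMap.zero_apply]
      rw [← hv]
      refine Finset.sum_congr rfl fun i _ => ?_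
      rw [mul_comm]; rfl
    have hzero := Fintype.linearIndependent_iff.mp hφind _ hc
    refine LinearMap.pi_ext fun i x => ?_
    have : (Pi.single i x : Fin r → ℂ) = x • Pi.single i 1 := by
      ext j; simp [Pi.single_apply]
    rw [this, map_smul, hzero i]
    simp
  choose w hw using fun j => hΘsurj (Pi.single j 1)
  refine ⟨w, fun i j => ?_, ?_⟩
  · rw [← hΘapply, hw j]
    simp [Pi.single_apply]
  · rw [eq_top_iff]
    intro v _
    have hv : v = ∑ j, (Θ v j) • w j := by
      apply hΘinj
      rw [map_sum]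
      simp only [map_smul, hw]
      ext j
      simp [Finset.sum_apply, Pi.single_apply]
    rw [hv]
    exact Submodule.sum_mem _ fun j _ => Submodule.smul_mem _ _ (Submodule.subset_span ⟨j, rfl⟩)

/-- **Abstract integral structure theorem.** -/
theorem span_integral_eq_top
    (𝕋 : Subalgebra ℤ (Module.End ℂ V)) [Module.Finite ℤ 𝕋]
    (hcomm : ∀ s ∈ 𝕋, ∀ t ∈ 𝕋, s * t = t * s)
    (L : Submodule ℤ (Module.Dual ℂ V)) (hfg : L.FG)
    (hsep : ∀ v : V, (∀ l ∈ L, l v = 0) → v = 0)
    (hstab : ∀ t ∈ 𝕋, ∀ l ∈ L, l.comp t ∈ L)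
    (hdisc : ∀ (m : ℕ) (b : Module.Basis (Fin m) ℤ L),
      LinearIndependent ℝ (fun a => (b a : Module.Dual ℂ V)))
    (κ : V → V) (hκadd : ∀ v w, κ (v + w) = κ v + κ w)
    (hκsmul : ∀ (c : ℂ) (v : V), κ (c • v) = (starRingEnd ℂ) c • κ v)
    (hκsurj : Function.Surjective κ) (hκcomm : ∀ t ∈ 𝕋, ∀ v, κ (t v) = t (κ v))
    (a₁ : Module.Dual ℂ V) (hnd : ∀ v : V, (∀ t ∈ 𝕋, a₁ (t v) = 0) → v = 0) :
    Submodule.span ℂ {v : V | ∀ t ∈ 𝕋, ∃ n : ℤ, a₁ (t v) = n} = ⊤ := by
  classical
  have hV : Module.IsTorsionFree ℤ V := isTorsionFree_int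
  have hT : Module.IsTorsionFree ℤ ↥𝕋 :=
    Function.Injective.moduleIsTorsionFree (Subtype.val) Subtype.val_injective (fun r m => rfl)
  have hLfin : Module.Finite ℤ L := Module.Finite.iff_fg.mpr hfg
  -- bases
  let bT := Module.finBasis ℤ 𝕋
  let bL := Module.finBasis ℤ L
  set r := Module.finrank ℤ 𝕋 with hr
  set m := Module.finrank ℤ L with hm
  set τ : Fin r → Module.End ℂ V := fun i => (bT i : Module.End ℂ V) with hτdef
  set β : Fin m → Module.Dual ℂ V := fun a => (bL a : Module.Dual ℂ V) with hβdef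
  have hτmem : ∀ i, τ i ∈ 𝕋 := fun i => (bT i).2
  have hβmem : ∀ a, β a ∈ L := fun a => (bL a).2
  -- every element of `𝕋` is an integer combination of the `τ i`
  have hTspan : ∀ t ∈ 𝕋, ∃ n : Fin r → ℤ, t = ∑ i, n i • τ i := by
    intro t ht
    refine ⟨fun i => bT.repr ⟨t, ht⟩ i, ?_⟩
    have := bT.sum_repr ⟨t, ht⟩
    have h2 : ((∑ i, (bT.repr ⟨t, ht⟩) i • bT i : ↥𝕋) : Module.End ℂ V) = t :=
      congrArg (Subtype.val) this
    refine h2.symm.trans ?_
    simp [hτdef]
  have hLspan : ∀ l ∈ L, ∃ n : Fin m → ℤ, l = ∑ a, n a • β a := by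
    intro l hl
    refine ⟨fun a => bL.repr ⟨l, hl⟩ a, ?_⟩
    have := bL.sum_repr ⟨l, hl⟩
    have h2 : ((∑ a, (bL.repr ⟨l, hl⟩) a • bL a : ↥L) : Module.Dual ℂ V) = l :=
      congrArg (Subtype.val) this
    refine h2.symm.trans ?_
    rw [Submodule.coe_sum]
    rfl
  have hτind : LinearIndependent ℤ τ := by
    have := bT.linearIndependent.map' (𝕋.val.toLinearMap) (by
      rw [LinearMap.ker_eq_bot]; exact Subtype.val_injective)
    exact this
  have hβind : LinearIndependent ℝ β := hdisc m bL
  -- the integer matrices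
  set A : Fin r → Fin m → Fin m → ℤ := fun i a b =>
    bL.repr ⟨(β a).comp (τ i), hstab _ (hτmem i) _ (hβmem a)⟩ b with hAdef
  have hA : ∀ i a, (β a).comp (τ i) = ∑ b, (A i a b) • β b := by
    intro i a
    have := bL.sum_repr ⟨(β a).comp (τ i), hstab _ (hτmem i) _ (hβmem a)⟩
    have h2 : ((∑ b, (bL.repr ⟨(β a).comp (τ i), hstab _ (hτmem i) _ (hβmem a)⟩) b • bL b : ↥L) :
        Module.Dual ℂ V) = (β a).comp (τ i) := congrArg (Subtype.val) this
    refine h2.symm.trans ?_
    rw [Submodule.coe_sum]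
    rfl
  have hsepβ : ∀ v : V, (∀ a, β a v = 0) → v = 0 := by
    intro v hv
    refine hsep v fun l hl => ?_
    obtain ⟨n, rfl⟩ := hLspan l hl
    simp [LinearMap.sum_apply, hv]
  have hτC : LinearIndependent ℂ τ :=
    complex_independent τ β hβind A hA hsepβ hτind κ hκadd hκsmul hκsurj
      (fun i v => hκcomm _ (hτmem i) v)
  obtain ⟨w, hw, hspan⟩ := exists_dual_family τ hτC
    (fun i j => hcomm _ (hτmem i) _ (hτmem j)) a₁
    (fun v hv => hnd v fun t ht => by
      obtain ⟨n, rfl⟩ := hTspan t ht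
      simp [LinearMap.sum_apply, map_sum, hv])
  rw [eq_top_iff, ← hspan]
  refine Submodule.span_mono ?_
  rintro _ ⟨j, rfl⟩ t ht
  obtain ⟨n, rfl⟩ := hTspan t ht
  refine ⟨n j, ?_⟩
  simp only [LinearMap.sum_apply, LinearMap.smul_apply, map_sum, map_zsmul, hw]
  simp

end Fermat.Agent.M2.ES.IntAbs
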