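/-
M2/ES task IS1: the Hecke pairing `(t, f) ↦ a₁(t f)` on `𝕋 × S_k(Γ₀(N))`.
Nondegeneracy in `f`, and integrality of the `q`-coefficients from integrality of `a₁(t f)`.
-/
import Mathlib
import Fermat.Prelude.Def_CuspForm_HeckeAlgebra
import Fermat.Prelude.Def_FLTPrelim_Modularity
import Fermat.Prelude.Thm_ModularFormClass_qCoeff_heckeT
import Fermat.Prelude.Thm_ModularFormClass_qCoeff_heckeU
import Fermat.Prelude.Thm_CongruenceSubgroup_one_mem_strictPeriods_Gamma0
import Fermat.Prelude.Thm_UpperHalfPlane_eq_of_forall_qCoeff_eq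

set_option autoImplicit false

namespace Fermat.Agent.M2.ES.Pairing

open CuspForm ModularFormClass UpperHalfPlane ModularForm

variable {N : ℕ} {k : ℤ}

/-- `q`-coefficients of `T_p f` for a cusp form `f` on `Γ₀(N)`. -/
lemma qCoeff_heckeTLin {p : ℕ} (hp : p.Prime) (hpN : ¬ p ∣ N)
    (f : CuspForm (CongruenceSubgroup.Gamma0 N) k) (n : ℕ) :
    qCoeff (CuspForm.heckeTLin k hp hpN f) n = coeffHeckeT k p (qCoeff f) n := by
  rw [CuspForm.coe_heckeTLin_apply]
  exact ModularFormClass.qCoeff_heckeT f (CongruenceSubgroup.one_mem_strictPeriods_Gamma0 N)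
    hp.ne_zero n

/-- `q`-coefficients of `U_p f` for a cusp form `f` on `Γ₀(N)`. -/
lemma qCoeff_heckeULin [NeZero N] {p : ℕ} (hp : p.Prime) (hpN : p ∣ N)
    (f : CuspForm (CongruenceSubgroup.Gamma0 N) k) (n : ℕ) :
    qCoeff (CuspForm.heckeULin k hpN f) n = coeffHeckeU p (qCoeff f) n := by
  rw [CuspForm.coe_heckeULin_apply]
  exact ModularFormClass.qCoeff_heckeU f (CongruenceSubgroup.one_mem_strictPeriods_Gamma0 N)
    hp.ne_zero n

/-- The constant term of a cusp form vanishes. -/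
lemma qCoeff_zero (f : CuspForm (CongruenceSubgroup.Gamma0 N) k) : qCoeff f 0 = 0 :=
  CuspFormClass.qExpansion_coeff_zero f one_pos (CongruenceSubgroup.one_mem_strictPeriods_Gamma0 N)

/-- Key induction: if `a₁(t f)` lies in an additive subgroup `A` of `ℂ` stable under
multiplication by `p ^ (k - 1)` for all primes `p`, for all `t` in the Hecke algebra,
then so do all `aₙ(t f)`, `n ≥ 1`. -/
theorem qCoeff_mem_of_forall_qCoeff_one_mem [NeZero N] (A : AddSubgroup ℂ)
    (hA : ∀ p : ℕ, p.Prime → ∀ a ∈ A, (p : ℂ) ^ (k - 1) * a ∈ A)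
    (f : CuspForm (CongruenceSubgroup.Gamma0 N) k)
    (h : ∀ t ∈ CuspForm.heckeAlgebra N k ∅, qCoeff (t f) 1 ∈ A) :
    ∀ n : ℕ, 1 ≤ n → ∀ t ∈ CuspForm.heckeAlgebra N k ∅, qCoeff (t f) n ∈ A := by
  intro n
  induction n using Nat.strong_induction_on with
  | _ n ih =>
    intro hn t ht
    rcases eq_or_lt_of_le hn with h1 | h1
    · rw [← h1]; exact h t ht
    · -- pick a prime factor `p` of `n`
      obtain ⟨p, hp, hpn⟩ := Nat.exists_prime_and_dvd (by omega : n ≠ 1)
      obtain ⟨m, rfl⟩ := hpn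
      have hm1 : 1 ≤ m := by
        rcases Nat.eq_zero_or_pos m with h0 | h0
        · rw [h0] at h1; omega
        · exact h0
      have hmlt : m < p * m := by
        have := hp.two_le
        nlinarith
      by_cases hpN : p ∣ N
      · -- `a_{pm}(t f) = a_m(U_p t f)`
        have hU : CuspForm.heckeULin k hpN * t ∈ CuspForm.heckeAlgebra N k ∅ :=
          Subalgebra.mul_mem _ (heckeULin_mem_heckeAlgebra hp hpN (Set.notMem_empty p)) ht
        have := ih m hmlt hm1 _ hU
        rw [Module.End.mul_apply, qCoeff_heckeULin hp hpN, coeffHeckeU_apply] at this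
        rwa [mul_comm p m]
      · -- `a_{pm}(t f) = a_m(T_p t f) - [p ∣ m] p^(k-1) a_{m/p}(t f)`
        have hT : CuspForm.heckeTLin k hp hpN * t ∈ CuspForm.heckeAlgebra N k ∅ :=
          Subalgebra.mul_mem _ (heckeTLin_mem_heckeAlgebra hp hpN (Set.notMem_empty p)) ht
        have h2 := ih m hmlt hm1 _ hT
        rw [Module.End.mul_apply, qCoeff_heckeTLin hp hpN, coeffHeckeT_apply] at h2
        rw [mul_comm p m]
        by_cases hpm : p ∣ m
        · rw [if_pos hpm] at h2
          have hdiv1 : 1 ≤ m / p := Nat.div_pos (Nat.le_of_dvd hm1 hpm) hp.pos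
          have hdivlt : m / p < p * m := lt_of_le_of_lt (Nat.div_le_self m p) hmlt
          have h3 := hA p hp _ (ih (m / p) hdivlt hdiv1 t ht)
          have := A.sub_mem h2 h3
          simpa using this
        · rw [if_neg hpm, add_zero] at h2
          exact h2

/-- The pairing `(t, f) ↦ a₁(t f)` is nondegenerate in `f`. -/
theorem eq_zero_of_forall_qCoeff_one_eq_zero [NeZero N] (f : CuspForm (CongruenceSubgroup.Gamma0 N) k)
    (h : ∀ t ∈ CuspForm.heckeAlgebra N k ∅, qCoeff (t f) 1 = 0) : f = 0 := by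
  have key := qCoeff_mem_of_forall_qCoeff_one_mem (⊥ : AddSubgroup ℂ)
    (fun p _ a ha => by
      rw [AddSubgroup.mem_bot] at ha ⊢
      rw [ha, mul_zero]) f
    (fun t ht => by rw [AddSubgroup.mem_bot]; exact h t ht)
  have hall : ∀ n : ℕ, qCoeff f n = 0 := by
    intro n
    rcases Nat.eq_zero_or_pos n with h0 | h0
    · rw [h0]; exact qCoeff_zero f
    · have := key n h0 1 (Subalgebra.one_mem _)
      rwa [AddSubgroup.mem_bot, Module.End.one_apply] at this
  have hper : ∀ g : CuspForm (CongruenceSubgroup.Gamma0 N) k,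
      Function.Periodic ((g : ℍ → ℂ) ∘ UpperHalfPlane.ofComplex) 1 := fun g => by
    exact SlashInvariantFormClass.periodic_comp_ofComplex g
      (CongruenceSubgroup.one_mem_strictPeriods_Gamma0 N)
  have hzero : (f : ℍ → ℂ) = ((0 : CuspForm (CongruenceSubgroup.Gamma0 N) k) : ℍ → ℂ) := by
    apply UpperHalfPlane.eq_of_forall_qCoeff_eq (hper f) (CuspFormClass.holo f)
      (ModularFormClass.bdd_at_infty f) (hper 0) (CuspFormClass.holo (0 : CuspForm _ k))
      (ModularFormClass.bdd_at_infty (0 : CuspForm _ k))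
    intro n
    rw [hall n]
    have : ((0 : CuspForm (CongruenceSubgroup.Gamma0 N) k) : ℍ → ℂ) = 0 := rfl
    rw [this, qCoeff, qExpansion_zero]
    simp
  exact DFunLike.coe_injective hzero

/-- Integrality: if `a₁(t f) ∈ ℤ` for all `t` in the Hecke algebra (weight `k ≥ 1`), then all
`q`-coefficients of `f` are integers. -/
theorem qCoeff_int_of_forall_qCoeff_one_int [NeZero N] (hk : 1 ≤ k)
    (f : CuspForm (CongruenceSubgroup.Gamma0 N) k)
    (h : ∀ t ∈ CuspForm.heckeAlgebra N k ∅, ∃ m : ℤ, qCoeff (t f) 1 = m) :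
    ∀ n : ℕ, ∃ m : ℤ, qCoeff f n = m := by
  obtain ⟨j, hj⟩ : ∃ j : ℕ, k - 1 = j := ⟨(k - 1).toNat, by omega⟩
  have key := qCoeff_mem_of_forall_qCoeff_one_mem (Int.castAddHom ℂ).range
    (fun p _ a ha => by
      obtain ⟨m, rfl⟩ := ha
      refine ⟨(p : ℤ) ^ j * m, ?_⟩
      rw [hj, zpow_natCast]
      simp) f
    (fun t ht => by
      obtain ⟨m, hm⟩ := h t ht
      exact ⟨m, by rw [hm]; rfl⟩)
  intro n
  rcases Nat.eq_zero_or_pos n with h0 | h0
  · exact ⟨0, by rw [h0, qCoeff_zero f, Int.cast_zero]⟩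
  · obtain ⟨m, hm⟩ := key n h0 1 (Subalgebra.one_mem _)
    rw [Module.End.one_apply] at hm
    exact ⟨m, by rw [← hm]; rfl⟩

end Fermat.Agent.M2.ES.Pairing
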