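/-
M2/ES task ES3: the reflection `c(z) = -conj z` of the upper half plane and the induced real
structure `f ↦ conj ∘ f ∘ c` on cusp forms for `Γ₀(N)`; `q`-coefficients and Hecke compatibility.
-/
import Mathlib
import Fermat.Prelude.Def_ModularCurve_PeriodHomPair
import Fermat.Prelude.Def_CuspForm_HeckeAlgebra
import Fermat.Prelude.Def_FLTPrelim_Modularity
import Fermat.Prelude.Thm_ModularFormClass_qCoeff_heckeT
import Fermat.Prelude.Thm_ModularFormClass_qCoeff_heckeU
import Fermat.Prelude.Thm_CongruenceSubgroup_one_mem_strictPeriods_Gamma0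
import Fermat.Prelude.Thm_UpperHalfPlane_eq_of_forall_qCoeff_eq

set_option autoImplicit false

open UpperHalfPlane CongruenceSubgroup ModularCurve.Period Matrix.SpecialLinearGroup
open scoped MatrixGroups ComplexConjugate Manifold ModularForm

namespace Fermat.Agent.M2.ES.Reflect

/-! ### The reflection -/

/-- The reflection `z ↦ -conj z` of the upper half plane. -/
def refl (z : ℍ) : ℍ := ⟨-conj (z : ℂ), by simpa using z.im_pos⟩

@[simp] theorem coe_refl (z : ℍ) : ((refl z : ℍ) : ℂ) = -conj (z : ℂ) := rfl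

@[simp] theorem im_refl (z : ℍ) : (refl z).im = z.im := by
  change (-conj (z : ℂ)).im = _
  simp

@[simp] theorem re_refl (z : ℍ) : (refl z).re = -z.re := by
  change (-conj (z : ℂ)).re = _
  simp

@[simp] theorem refl_refl (z : ℍ) : refl (refl z) = z := by
  apply UpperHalfPlane.ext
  simp

theorem refl_involutive : Function.Involutive refl := refl_refl

theorem refl_eq_J_smul (z : ℍ) : refl z = J • z := by
  apply UpperHalfPlane.ext
  rw [coe_J_smul, coe_refl]

/-- The reflection intertwines `γ` and `jConjSL γ = diag(1,-1) γ diag(1,-1)`. -/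
theorem refl_smul (γ : SL(2, ℤ)) (z : ℍ) : refl (γ • z) = jConjSL γ • refl z := by
  apply UpperHalfPlane.ext
  rw [coe_refl, coe_specialLinearGroup_apply, coe_specialLinearGroup_apply, coe_refl]
  simp only [jConjSL_coe, jConjMat_apply_zero_zero, jConjMat_apply_zero_one,
    jConjMat_apply_one_zero, jConjMat_apply_one_one, map_div₀, map_add, map_mul, map_neg,
    Complex.conj_ofReal]
  push_cast
  rw [← neg_div]
  congr 1 <;> ring

theorem refl_jConjSL_smul (γ : SL(2, ℤ)) (z : ℍ) : refl (jConjSL γ • z) = γ • refl z := by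
  rw [refl_smul, jConjSL_jConjSL]

theorem refl_vadd (x : ℝ) (z : ℍ) : refl (x +ᵥ z) = (-x) +ᵥ refl z := by
  apply UpperHalfPlane.ext
  simp [UpperHalfPlane.coe_vadd]
  ring

theorem tendsto_refl_atImInfty : Filter.Tendsto refl atImInfty atImInfty := by
  rw [atImInfty, Filter.tendsto_comap_iff]
  have : UpperHalfPlane.im ∘ refl = UpperHalfPlane.im := funext im_refl
  rw [this]
  exact Filter.tendsto_comap

theorem conj_qParam_refl (z : ℍ) :
    conj (Function.Periodic.qParam 1 ((refl z : ℍ) : ℂ)) = Function.Periodic.qParam 1 (z : ℂ) := by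
  rw [Function.Periodic.qParam, Function.Periodic.qParam, ← Complex.exp_conj]
  congr 1
  simp [Complex.conj_ofNat]

/-! ### `J` normalises `Γ₀(N)` -/

theorem J_inv : (J : GL (Fin 2) ℝ)⁻¹ = J := by
  rw [inv_eq_iff_mul_eq_one, ← sq, J_sq]

theorem mapGL_jConjSL (γ : SL(2, ℤ)) :
    (mapGL ℝ (jConjSL γ) : GL (Fin 2) ℝ) = J * mapGL ℝ γ * J := by
  apply Units.ext
  ext i j
  fin_cases i <;> fin_cases j <;>
    simp [Matrix.mul_apply, Fin.sum_univ_two, jConjMat, Matrix.vecMul, dotProduct]

open ConjAct Pointwise in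
theorem conj_J_Gamma0 (N : ℕ) :
    ((Gamma0 N : Subgroup SL(2, ℤ)) : Subgroup (GL (Fin 2) ℝ))
      = toConjAct (J : GL (Fin 2) ℝ)⁻¹ •
          ((Gamma0 N : Subgroup SL(2, ℤ)) : Subgroup (GL (Fin 2) ℝ)) := by
  ext g
  rw [map_inv, Subgroup.mem_inv_pointwise_smul_iff, toConjAct_smul, J_inv]
  constructor
  · rintro ⟨γ, hγ, rfl⟩
    exact ⟨jConjSL γ, jConjSL_mem_Gamma0 hγ, mapGL_jConjSL γ⟩
  · rintro ⟨γ, hγ, h⟩
    refine ⟨jConjSL γ, jConjSL_mem_Gamma0 hγ, ?_⟩
    rw [mapGL_jConjSL, h]
    have : (J : GL (Fin 2) ℝ) * J = 1 := by rw [← sq, J_sq]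
    calc J * (J * g * J) * J = (J * J) * g * (J * J) := by group
      _ = g := by rw [this]; simp

theorem slash_J_apply (k : ℤ) (f : ℍ → ℂ) (z : ℍ) : (f ∣[k] J) z = conj (f (refl z)) := by
  rw [ModularForm.slash_def, refl_eq_J_smul]
  simp

/-! ### The real structure on cusp forms -/

section conjForm

variable {N : ℕ} {k : ℤ}

/-- The real structure `f ↦ (z ↦ conj (f (-conj z)))` on cusp forms for `Γ₀(N)`. -/
noncomputable def conjForm (f : CuspForm (Gamma0 N) k) : CuspForm (Gamma0 N) k :=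
  (CuspForm.translate f J).copy (fun z => conj (f (refl z)))
    (by
      ext z
      exact (slash_J_apply k f z).symm)
    (conj_J_Gamma0 N)

@[simp] theorem conjForm_apply (f : CuspForm (Gamma0 N) k) (z : ℍ) :
    conjForm f z = conj (f (refl z)) := rfl

theorem coe_conjForm (f : CuspForm (Gamma0 N) k) :
    ⇑(conjForm f) = fun z => conj (f (refl z)) := rfl

@[simp] theorem conjForm_conjForm (f : CuspForm (Gamma0 N) k) : conjForm (conjForm f) = f := by
  ext z
  simp

theorem conjForm_involutive :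
    Function.Involutive (conjForm : CuspForm (Gamma0 N) k → CuspForm (Gamma0 N) k) :=
  conjForm_conjForm

@[simp] theorem conjForm_add (f g : CuspForm (Gamma0 N) k) :
    conjForm (f + g) = conjForm f + conjForm g := by
  ext z
  simp

@[simp] theorem conjForm_zero : conjForm (0 : CuspForm (Gamma0 N) k) = 0 := by
  ext z
  simp

@[simp] theorem conjForm_neg (f : CuspForm (Gamma0 N) k) : conjForm (-f) = -conjForm f := by
  ext z
  simp

@[simp] theorem conjForm_sub (f g : CuspForm (Gamma0 N) k) :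
    conjForm (f - g) = conjForm f - conjForm g := by
  ext z
  simp

@[simp] theorem conjForm_smul (c : ℂ) (f : CuspForm (Gamma0 N) k) :
    conjForm (c • f) = conj c • conjForm f := by
  ext z
  simp

theorem conjForm_eq_zero_iff (f : CuspForm (Gamma0 N) k) : conjForm f = 0 ↔ f = 0 := by
  constructor
  · intro h
    have := congrArg conjForm h
    rwa [conjForm_conjForm, conjForm_zero] at this
  · rintro rfl
    exact conjForm_zero

/-- `conjForm` as a conjugate-linear map. -/
noncomputable def conjFormLin :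
    CuspForm (Gamma0 N) k →ₛₗ[starRingEnd ℂ] CuspForm (Gamma0 N) k where
  toFun := conjForm
  map_add' := conjForm_add
  map_smul' := conjForm_smul

@[simp] theorem conjFormLin_apply (f : CuspForm (Gamma0 N) k) : conjFormLin f = conjForm f := rfl

/-- `conjForm` as a conjugate-linear equivalence. -/
noncomputable def conjFormEquiv :
    CuspForm (Gamma0 N) k ≃ₛₗ[starRingEnd ℂ] CuspForm (Gamma0 N) k where
  toFun := conjForm
  map_add' := conjForm_add
  map_smul' := conjForm_smul
  invFun := conjForm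
  left_inv := conjForm_conjForm
  right_inv := conjForm_conjForm

@[simp] theorem conjFormEquiv_apply (f : CuspForm (Gamma0 N) k) :
    conjFormEquiv f = conjForm f := rfl

/-! ### `q`-coefficients -/

theorem qCoeff_conjForm (f : CuspForm (Gamma0 N) k) (n : ℕ) :
    ModularFormClass.qCoeff (conjForm f) n = conj (ModularFormClass.qCoeff f n) := by
  unfold ModularFormClass.qCoeff
  have h1 : (1 : ℝ) ∈ ((Gamma0 N : Subgroup SL(2, ℤ)) : Subgroup (GL (Fin 2) ℝ)).strictPeriods :=
    CongruenceSubgroup.one_mem_strictPeriods_Gamma0 N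
  have : Fact (IsCusp OnePoint.infty ((Gamma0 N : Subgroup SL(2, ℤ)) : Subgroup (GL (Fin 2) ℝ))) :=
    ⟨Subgroup.isCusp_of_mem_strictPeriods one_pos h1⟩
  symm
  refine ModularFormClass.qExpansion_coeff_unique (f := conjForm f)
    (c := fun m => conj ((qExpansion 1 f).coeff m)) one_pos h1 (fun τ => ?_) n
  have hs := ModularForm.hasSum_qExpansion f one_pos h1 (refl τ)
  have hs2 := hs.map (starRingEnd ℂ) Complex.continuous_conj
  convert hs2 using 1
  · ext m
    simp only [Function.comp_apply, smul_eq_mul, map_mul, map_pow, conj_qParam_refl]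
  · rfl

/-- Cusp forms on `Γ₀(N)` with the same `q`-coefficients are equal. -/
theorem cuspForm_ext_qCoeff {f g : CuspForm (Gamma0 N) k}
    (h : ∀ n : ℕ, ModularFormClass.qCoeff f n = ModularFormClass.qCoeff g n) : f = g := by
  have hper : ∀ g : CuspForm (Gamma0 N) k,
      Function.Periodic ((g : ℍ → ℂ) ∘ UpperHalfPlane.ofComplex) 1 := fun g =>
    SlashInvariantFormClass.periodic_comp_ofComplex g
      (CongruenceSubgroup.one_mem_strictPeriods_Gamma0 N)
  have : Fact (IsCusp OnePoint.infty ((Gamma0 N : Subgroup SL(2, ℤ)) : Subgroup (GL (Fin 2) ℝ))) :=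
    ⟨Subgroup.isCusp_of_mem_strictPeriods one_pos
      (CongruenceSubgroup.one_mem_strictPeriods_Gamma0 N)⟩
  exact DFunLike.coe_injective <|
    UpperHalfPlane.eq_of_forall_qCoeff_eq (hper f) (CuspFormClass.holo f)
      (ModularFormClass.bdd_at_infty f) (hper g) (CuspFormClass.holo g)
      (ModularFormClass.bdd_at_infty g) h

/-- A cusp form is fixed by `conjForm` iff all its `q`-coefficients are real. -/
theorem conjForm_eq_self_iff (f : CuspForm (Gamma0 N) k) :
    conjForm f = f ↔ ∀ n : ℕ, conj (ModularFormClass.qCoeff f n) = ModularFormClass.qCoeff f n := by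
  constructor
  · intro h n
    rw [← qCoeff_conjForm, h]
  · intro h
    apply cuspForm_ext_qCoeff
    intro n
    rw [qCoeff_conjForm, h n]

/-! ### Compatibility with the Hecke operators -/

theorem conj_natCast_zpow (p : ℕ) (m : ℤ) : conj ((p : ℂ) ^ m) = (p : ℂ) ^ m := by
  rw [map_zpow₀, Complex.conj_natCast]

theorem conjForm_heckeTLin {p : ℕ} (hp : p.Prime) (hpN : ¬ p ∣ N) (f : CuspForm (Gamma0 N) k) :
    conjForm (CuspForm.heckeTLin k hp hpN f) = CuspForm.heckeTLin k hp hpN (conjForm f) := by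
  apply cuspForm_ext_qCoeff
  intro n
  have h1 := CongruenceSubgroup.one_mem_strictPeriods_Gamma0 N
  rw [qCoeff_conjForm, CuspForm.coe_heckeTLin_apply, CuspForm.coe_heckeTLin_apply,
    ModularFormClass.qCoeff_heckeT f h1 hp.ne_zero n,
    ModularFormClass.qCoeff_heckeT (conjForm f) h1 hp.ne_zero n,
    ModularForm.coeffHeckeT_apply, ModularForm.coeffHeckeT_apply]
  simp only [qCoeff_conjForm, map_add, apply_ite (starRingEnd ℂ), map_mul, map_zero,
    conj_natCast_zpow]

theorem conjForm_heckeULin [NeZero N] {p : ℕ} (hp : p.Prime) (hpN : p ∣ N)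
    (f : CuspForm (Gamma0 N) k) :
    conjForm (CuspForm.heckeULin k hpN f) = CuspForm.heckeULin k hpN (conjForm f) := by
  apply cuspForm_ext_qCoeff
  intro n
  have h1 := CongruenceSubgroup.one_mem_strictPeriods_Gamma0 N
  rw [qCoeff_conjForm, CuspForm.coe_heckeULin_apply, CuspForm.coe_heckeULin_apply,
    ModularFormClass.qCoeff_heckeU f h1 hp.ne_zero n,
    ModularFormClass.qCoeff_heckeU (conjForm f) h1 hp.ne_zero n,
    ModularForm.coeffHeckeU_apply, ModularForm.coeffHeckeU_apply, qCoeff_conjForm]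

theorem conjForm_heckeGenerator [NeZero N] {S : Set ℕ}
    {t : Module.End ℂ (CuspForm (Gamma0 N) k)} (ht : t ∈ CuspForm.heckeGenerators N k S)
    (f : CuspForm (Gamma0 N) k) : conjForm (t f) = t (conjForm f) := by
  rcases ht with ⟨ℓ, hℓ, hℓN, -, rfl⟩ | ⟨q, hqN, hq, -, rfl⟩
  · exact conjForm_heckeTLin hℓ hℓN f
  · exact conjForm_heckeULin hq hqN f

theorem conjForm_zsmul (c : ℤ) (f : CuspForm (Gamma0 N) k) :
    conjForm (c • f) = c • conjForm f := by
  rw [← Int.cast_smul_eq_zsmul ℂ c f, ← Int.cast_smul_eq_zsmul ℂ c (conjForm f), conjForm_smul,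
    map_intCast]

/-- Elements of the (integral) Hecke algebra commute with `conjForm`. -/
theorem conjForm_hecke [NeZero N] {S : Set ℕ} {t : Module.End ℂ (CuspForm (Gamma0 N) k)}
    (ht : t ∈ CuspForm.heckeAlgebra N k S) (f : CuspForm (Gamma0 N) k) :
    conjForm (t f) = t (conjForm f) := by
  unfold CuspForm.heckeAlgebra at ht
  induction ht using Algebra.adjoin_induction generalizing f with
  | mem x hx => exact conjForm_heckeGenerator hx f
  | algebraMap c =>
    simp [conjForm_zsmul]
  | add x y _ _ hx hy => simp [hx, hy]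
  | mul x y _ _ hx hy => simp [hx, hy]

end conjForm

/-! ### Holomorphy and derivatives of `conj ∘ F ∘ refl` -/

theorem ofComplex_neg_conj {w : ℂ} (hw : 0 < w.im) :
    ofComplex (-conj w) = refl (ofComplex w) := by
  apply UpperHalfPlane.ext
  rw [coe_refl, ofComplex_apply_of_im_pos hw, ofComplex_apply_of_im_pos (by simpa using hw)]

theorem mdiff_conj_comp_refl {F : ℍ → ℂ} (hF : MDiff F) :
    MDiff (fun z => conj (F (refl z))) := by
  have := hF.slash 0 J
  have h2 : (F ∣[(0 : ℤ)] J) = fun z => conj (F (refl z)) := funext (slash_J_apply 0 F)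
  rwa [h2] at this

theorem comp_ofComplex_eventuallyEq (F : ℍ → ℂ) {z : ℂ} (hz : 0 < z.im) :
    ((fun w : ℍ => conj (F (refl w))) ∘ ofComplex)
      =ᶠ[nhds z] (conj ∘ (fun u => (F ∘ ofComplex) (-u)) ∘ conj) := by
  filter_upwards [isOpen_upperHalfPlaneSet.mem_nhds hz] with w hw
  simp only [Function.comp_apply]
  rw [ofComplex_neg_conj hw]

/-- If `F ∘ ofComplex` has derivative `F'` at `refl z`, then `conj ∘ F ∘ refl` has derivative
`-conj F'` at `z` (pointwise version). -/
theorem hasDerivAt_conj_comp_refl_at {F : ℍ → ℂ} {F' : ℂ} (z : ℍ)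
    (h : HasDerivAt (F ∘ ofComplex) F' ((refl z : ℍ) : ℂ)) :
    HasDerivAt ((fun w : ℍ => conj (F (refl w))) ∘ ofComplex) (-conj F') (z : ℂ) := by
  have hg : HasDerivAt (fun u : ℂ => (F ∘ ofComplex) (-u)) (-F') (conj (z : ℂ)) := by
    have h' : HasDerivAt (F ∘ ofComplex) F' (-(conj (z : ℂ))) := h
    have := h'.comp (conj (z : ℂ)) (hasDerivAt_neg (conj (z : ℂ)))
    rw [mul_neg, mul_one] at this
    exact this
  have h2 := hg.conj_conj
  rw [Complex.conj_conj, map_neg] at h2
  exact h2.congr_of_eventuallyEq (comp_ofComplex_eventuallyEq F z.im_pos)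

/-- If `F` has derivative `F'` on `ℍ`, then `conj ∘ F ∘ refl` has derivative
`-conj ∘ F' ∘ refl`. -/
theorem hasDerivAt_conj_comp_refl {F F' : ℍ → ℂ}
    (h : ∀ τ : ℍ, HasDerivAt (F ∘ ofComplex) (F' τ) τ) (τ : ℍ) :
    HasDerivAt ((fun z : ℍ => conj (F (refl z))) ∘ ofComplex) (-conj (F' (refl τ))) τ :=
  hasDerivAt_conj_comp_refl_at τ (h (refl τ))

theorem deriv_conj_comp_refl {F : ℍ → ℂ} (hF : MDiff F) (z : ℍ) :
    deriv ((fun w : ℍ => conj (F (refl w))) ∘ ofComplex) (z : ℂ)
      = -conj (deriv (F ∘ ofComplex) ((refl z : ℍ) : ℂ)) := by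
  have hd : DifferentiableAt ℂ (F ∘ ofComplex) ((refl z : ℍ) : ℂ) :=
    mdifferentiableAt_iff.mp (hF (refl z))
  exact (hasDerivAt_conj_comp_refl_at z hd.hasDerivAt).deriv

/-- Limits at `i∞` are compatible with `conj ∘ F ∘ refl`. -/
theorem tendsto_conj_comp_refl {F : ℍ → ℂ} {L : ℂ} (h : Filter.Tendsto F atImInfty (nhds L)) :
    Filter.Tendsto (fun z => conj (F (refl z))) atImInfty (nhds (conj L)) :=
  (Complex.continuous_conj.tendsto L).comp (h.comp tendsto_refl_atImInfty)

theorem isZeroAtImInfty_conj_comp_refl {F : ℍ → ℂ} (h : IsZeroAtImInfty F) :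
    IsZeroAtImInfty (fun z => conj (F (refl z))) := by
  have := tendsto_conj_comp_refl (F := F) (L := 0) h
  rwa [map_zero] at this

end Fermat.Agent.M2.ES.Reflect
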