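/-
M2/ES task ES3 (second half): the reflection and equivariant primitives / period maps.
If `F` is an equivariant primitive of `f`, then `z ↦ -conj (F (-conj z))` is an equivariant
primitive of `conjForm f`; consequently
`periodMap (conjForm f) γ = -conj (periodMap f (jConjGamma0 γ))`.
-/
import Fermat.Agent.M2.ES.Reflect
import Fermat.Agent.S22.IteratedPrimitive
import Fermat.Prelude.Def_ModularCurve_PeriodHomPair

set_option autoImplicit false

open UpperHalfPlane CongruenceSubgroup ModularCurve ModularCurve.Period Matrix.SpecialLinearGroup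
open scoped MatrixGroups ComplexConjugate Manifold ModularForm Topology

namespace Fermat.Agent.M2.ES.Reflect

variable {N : ℕ}

/-- The period map of `f` can be computed from any equivariant primitive of `f`. -/
theorem periodMap_apply_of_hasEquivariantPrimitive {f : CuspForm (Gamma0 N) 2} {F : ℍ → ℂ}
    (hF : HasEquivariantPrimitive N f F) (γ : Gamma0 N) (z : ℍ) :
    periodMap N f (Additive.ofMul γ) = F ((γ : SL(2, ℤ)) • z) - F z := by
  obtain ⟨F₀, h₀, hper⟩ := periodMap_def N f hF
  have hFF : F₀ = F :=
    Fermat.Agent.S22.eq_of_hasDerivAt_of_vertDecayAt (x := 0) h₀.1 hF.1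
      (Fermat.Agent.S22.vertDecayAt_of_isZeroAtImInfty h₀.2.1 0)
      (Fermat.Agent.S22.vertDecayAt_of_isZeroAtImInfty hF.2.1 0)
  subst hFF
  rw [hper, IsEquivariantPrimitive.periodHom_apply, ← h₀.2.2.1.sub_eq_period γ z]

/-- An equivariant primitive of `f` is unique. -/
theorem hasEquivariantPrimitive_unique {f : CuspForm (Gamma0 N) 2} {F G : ℍ → ℂ}
    (hF : HasEquivariantPrimitive N f F) (hG : HasEquivariantPrimitive N f G) : F = G :=
  Fermat.Agent.S22.eq_of_hasDerivAt_of_vertDecayAt (x := 0) hF.1 hG.1
    (Fermat.Agent.S22.vertDecayAt_of_isZeroAtImInfty hF.2.1 0)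
    (Fermat.Agent.S22.vertDecayAt_of_isZeroAtImInfty hG.2.1 0)

/-- The reflected primitive: if `F` is an equivariant primitive of `f`, then
`z ↦ -conj (F (refl z))` is an equivariant primitive of `conjForm f`. -/
theorem hasEquivariantPrimitive_conjForm {f : CuspForm (Gamma0 N) 2} {F : ℍ → ℂ}
    (hF : HasEquivariantPrimitive N f F) :
    HasEquivariantPrimitive N (conjForm f) (fun z => -conj (F (refl z))) := by
  obtain ⟨hder, hzero, heq, hlim⟩ := hF
  refine ⟨fun τ => ?_, ?_, fun γ => ?_, fun δ => ?_⟩
  · have h1 := (hasDerivAt_conj_comp_refl hder τ).neg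
    rw [neg_neg] at h1
    exact h1
  · have := (tendsto_conj_comp_refl hzero).neg
    simpa using this
  · obtain ⟨c, hc⟩ := heq (jConjGamma0 N γ)
    refine ⟨-conj c, fun z => ?_⟩
    have := hc (refl z)
    rw [jConjGamma0_coe, ← refl_smul] at this
    rw [← this]
    simp only [map_sub]
    ring
  · obtain ⟨L, hL⟩ := hlim (jConjSL δ)
    refine ⟨-conj L, ?_⟩
    have h1 : (fun w : ℍ => -conj (F (refl (δ • w))))
        = fun w : ℍ => -conj ((fun u : ℍ => F (jConjSL δ • u)) (refl w)) := by
      funext w
      rw [refl_smul]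
    show Filter.Tendsto (fun w : ℍ => -conj (F (refl (δ • w)))) atImInfty (𝓝 (-conj L))
    rw [h1]
    exact (tendsto_conj_comp_refl hL).neg

/-- The period map of `conjForm f`. -/
theorem periodMap_conjForm {f : CuspForm (Gamma0 N) 2} {F : ℍ → ℂ}
    (hF : HasEquivariantPrimitive N f F) (γ : Gamma0 N) :
    periodMap N (conjForm f) (Additive.ofMul γ)
      = -conj (periodMap N f (Additive.ofMul (jConjGamma0 N γ))) := by
  rw [periodMap_apply_of_hasEquivariantPrimitive (hasEquivariantPrimitive_conjForm hF) γ I,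
    periodMap_apply_of_hasEquivariantPrimitive hF (jConjGamma0 N γ) (refl I),
    jConjGamma0_coe, ← refl_smul]
  simp only [map_sub]
  ring

/-- `periodMap (conjForm f) = -conj ∘ charInvolution (periodMap f)` pointwise. -/
theorem periodMap_conjForm_apply {f : CuspForm (Gamma0 N) 2} {F : ℍ → ℂ}
    (hF : HasEquivariantPrimitive N f F) (γ : Additive (Gamma0 N)) :
    periodMap N (conjForm f) γ = -conj (charInvolution N ℂ ℂ (periodMap N f) γ) :=
  periodMap_conjForm hF (Additive.toMul γ)

end Fermat.Agent.M2.ES.Reflect
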