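import Fermat.Agent.M2.ES.Prim
import Fermat.Agent.M2.ES.Reflect
import Fermat.Agent.M2.ES.ReflectPrim
import Fermat.Agent.M2.ES.Pairing
import Fermat.Agent.M2.ES.IntegralAbstract
import Fermat.Agent.S22
import Fermat.Prelude.Def_CuspForm_IntegralStructure

/-!
# M2 / IS2: the integral structure on `S₂(Γ₀(N))` (statement S23) from the surjectivity half of
the Eichler–Shimura isomorphism (statement S21)
-/

set_option autoImplicit false

open UpperHalfPlane hiding I
open Function Complex Filter Topology CongruenceSubgroup Polynomial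
open scoped Real Manifold MatrixGroups ModularForm

namespace Fermat.Agent.M2.ES.S23Cond

open ModularCurve ModularCurve.Period Fermat.Agent.M2.ES Fermat.Agent.S22
open Fermat.Agent.M2.ES.Reflect

local notation "conj" => starRingEnd ℂ

variable (N : ℕ) [NeZero N]

local notation "S₂" => CuspForm (Gamma0 N) 2

/-- the period functional `f ↦ ∫_γ f` -/
noncomputable def lam (γ : Gamma0 N) : Module.Dual ℂ S₂ where
  toFun f := pml N f (Additive.ofMul γ)
  map_add' f g := by rw [map_add]; rfl
  map_smul' c f := by rw [map_smul]; rfl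

@[simp] theorem lam_apply (γ : Gamma0 N) (f : S₂) : lam N γ f = pml N f (Additive.ofMul γ) := rfl

theorem lam_mul (γ δ : Gamma0 N) : lam N (γ * δ) = lam N γ + lam N δ := by
  ext f
  simp only [lam_apply, LinearMap.add_apply]
  rw [ofMul_mul, map_add]

/-- the constant term of the weight-2 period polynomial is the period -/
theorem coeffFunctional_periodPoly (γ : Gamma0 N) :
    coeffFunctional (periodPoly N 0 γ) 0 = lam N γ := by
  ext f
  rw [coeffFunctional_apply, lam_apply, pml_apply N f γ UpperHalfPlane.I]
  have h := congrFun (polyFun_periodPoly N 0 γ f) UpperHalfPlane.I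
  have hdeg := natDegree_periodPoly_le N 0 γ f
  rw [Polynomial.eq_C_of_natDegree_le_zero hdeg] at h
  simp only [polyFun, eval_C, Pi.sub_apply, Nat.cast_zero, neg_zero] at h
  rw [h, slash_zero_apply]
  rfl

/-- the weight-2 period lattice is spanned by the period functionals -/
theorem periodLattice_eq_span :
    periodLatticeGamma0 N 0 = Submodule.span ℤ (Set.range (lam N)) := by
  unfold periodLatticeGamma0 periodLattice
  congr 1
  ext l
  constructor
  · rintro ⟨γ, j, hj, rfl⟩
    obtain rfl : j = 0 := Nat.le_zero.mp hj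
    exact ⟨γ, (coeffFunctional_periodPoly N γ).symm⟩
  · rintro ⟨γ, rfl⟩
    exact ⟨γ, 0, le_rfl, (coeffFunctional_periodPoly N γ).symm⟩

/-- the weight-2 period lattice, as a lattice of functionals on `S₂(Γ₀(N))` -/
noncomputable def lat : Submodule ℤ (Module.Dual ℂ S₂) := periodLatticeGamma0 N 0

theorem lat_eq_span : lat N = Submodule.span ℤ (Set.range (lam N)) := periodLattice_eq_span N

theorem lam_mem_lat (γ : Gamma0 N) : lam N γ ∈ lat N := by
  rw [lat_eq_span]; exact Submodule.subset_span ⟨γ, rfl⟩

/-- relation between periods at `jConj γ` and the conjugate form -/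
theorem pml_jConj (f : S₂) (γ : Gamma0 N) :
    pml N f (Additive.ofMul (jConjGamma0 N γ)) = -conj (pml N (conjForm f) (Additive.ofMul γ)) := by
  have h := periodMap_conjForm (hasEquivariantPrimitive_prim N f) γ
  rw [← pml_eq_periodMap, ← pml_eq_periodMap] at h
  rw [h]; simp

/-- consequence of the surjectivity half of S21: every parabolic homomorphism is of the form
`γ ↦ ∫_γ u + conj (∫_γ v)` -/
theorem exists_forms_of_parabolic
    (hsurj : LinearMap.range (periodHomPair N) = parabolicHoms ℂ (Gamma0 N) ℂ)
    (ψ : Additive (Gamma0 N) →+ ℂ) (hψ : ψ ∈ parabolicHoms ℂ (Gamma0 N) ℂ) :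
    ∃ u v : S₂, ∀ γ : Gamma0 N, ψ (Additive.ofMul γ) = lam N γ u + conj (lam N γ v) := by
  rw [← hsurj] at hψ
  obtain ⟨⟨f, g⟩, rfl⟩ := hψ
  refine ⟨f + g, conjForm (g - f), fun γ => ?_⟩
  rw [periodHomPair_eq, LinearMap.coprod_apply]
  simp only [LinearMap.comp_apply, LinearMap.add_apply, LinearMap.sub_apply, LinearMap.id_apply,
    AddMonoidHom.add_apply, AddMonoidHom.sub_apply, charInvolution_apply, toMul_ofMul, lam_apply]
  rw [pml_jConj, pml_jConj, conjForm_sub, map_add, map_sub]
  simp only [AddMonoidHom.add_apply, AddMonoidHom.sub_apply, map_sub]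
  ring

/-- the real-linear functional `l ↦ l u + conj (l v)` on the dual space -/
noncomputable def Xi (u v : S₂) : Module.Dual ℂ S₂ →ₗ[ℝ] ℂ where
  toFun l := l u + conj (l v)
  map_add' l l' := by simp only [LinearMap.add_apply, map_add]; ring
  map_smul' x l := by
    simp only [LinearMap.smul_apply, RingHom.id_apply, Complex.real_smul, map_mul,
      Complex.conj_ofReal]
    ring

omit [NeZero N] in
theorem Xi_apply (u v : S₂) (l : Module.Dual ℂ S₂) : Xi N u v l = l u + conj (l v) := rfl

/-- **Discreteness of the period lattice** from the surjectivity half of S21. -/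
theorem discrete
    (hsurj : LinearMap.range (periodHomPair N) = parabolicHoms ℂ (Gamma0 N) ℂ)
    (m : ℕ) (b : Module.Basis (Fin m) ℤ (lat N)) :
    LinearIndependent ℝ (fun a => (b a : Module.Dual ℂ S₂)) := by
  classical
  -- coordinate homomorphisms
  have hlam1 : lam N 1 = 0 := by
    have := lam_mul N 1 1
    rw [mul_one] at this
    exact left_eq_add.mp this
  let ψ : Fin m → (Additive (Gamma0 N) →+ ℂ) := fun a =>
    { toFun := fun γ => ((b.repr ⟨lam N (Additive.toMul γ), lam_mem_lat N _⟩ a : ℤ) : ℂ)
      map_zero' := by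
        have : (⟨lam N (Additive.toMul (0 : Additive (Gamma0 N))), lam_mem_lat N _⟩ : lat N) = 0 := by
          apply Subtype.ext
          exact hlam1
        rw [this]; simp
      map_add' := fun γ δ => by
        have : (⟨lam N (Additive.toMul (γ + δ)), lam_mem_lat N _⟩ : lat N)
            = ⟨lam N (Additive.toMul γ), lam_mem_lat N _⟩
              + ⟨lam N (Additive.toMul δ), lam_mem_lat N _⟩ := by
          apply Subtype.ext
          exact lam_mul N _ _
        rw [this, map_add, Finsupp.add_apply]
        push_cast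
        rfl }
  have hψpar : ∀ a, ψ a ∈ parabolicHoms ℂ (Gamma0 N) ℂ := by
    intro a
    rw [mem_parabolicHoms_iff]
    intro γ hγ
    have h0 : lam N γ = 0 := by
      ext f
      have := pml_mem_parabolicHoms N f
      rw [mem_parabolicHoms_iff] at this
      simpa using this γ hγ
    show ((b.repr ⟨lam N γ, lam_mem_lat N _⟩ a : ℤ) : ℂ) = 0
    have : (⟨lam N γ, lam_mem_lat N _⟩ : lat N) = 0 := Subtype.ext h0
    rw [this]; simp
  choose u v huv using fun a => exists_forms_of_parabolic N hsurj (ψ a) (hψpar a)
  -- the real functionals compute the coordinates on the lattice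
  have hcoord : ∀ a, ∀ (l : Module.Dual ℂ S₂) (hl : l ∈ lat N),
      Xi N (u a) (v a) l = ((b.repr ⟨l, hl⟩ a : ℤ) : ℂ) := by
    intro a l hl
    have hl' : l ∈ Submodule.span ℤ (Set.range (lam N)) := by rw [← lat_eq_span]; exact hl
    have key : ∀ (l : Module.Dual ℂ S₂) (hl' : l ∈ Submodule.span ℤ (Set.range (lam N))),
        Xi N (u a) (v a) l
          = ((b.repr ⟨l, by rw [lat_eq_span]; exact hl'⟩ a : ℤ) : ℂ) := by
      intro l hl'
      induction hl' using Submodule.span_induction with
      | mem x hx =>
        obtain ⟨γ, rfl⟩ := hx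
        rw [Xi_apply, ← huv a γ]
        rfl
      | zero =>
        have : (⟨(0 : Module.Dual ℂ S₂), by rw [lat_eq_span]; exact Submodule.zero_mem _⟩ :
            lat N) = 0 := rfl
        rw [map_zero, this]; simp
      | add x y hx hy ihx ihy =>
        have : (⟨x + y, by rw [lat_eq_span]; exact Submodule.add_mem _ hx hy⟩ : lat N)
            = ⟨x, by rw [lat_eq_span]; exact hx⟩ + ⟨y, by rw [lat_eq_span]; exact hy⟩ := rfl
        rw [map_add, ihx, ihy, this, map_add, Finsupp.add_apply]
        push_cast
        rfl
      | smul c x hx ihx =>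
        have : (⟨c • x, by rw [lat_eq_span]; exact Submodule.smul_mem _ c hx⟩ : lat N)
            = c • ⟨x, by rw [lat_eq_span]; exact hx⟩ := rfl
        have h2 : Xi N (u a) (v a) (c • x) = (c : ℂ) * Xi N (u a) (v a) x := by
          rw [← Int.cast_smul_eq_zsmul ℝ c x, map_smul]
          simp
        rw [h2, ihx, this, map_smul, Finsupp.smul_apply, smul_eq_mul]
        push_cast
        rfl
    exact key l hl'
  rw [Fintype.linearIndependent_iff]
  intro x hx a
  have h1 := congrArg (Xi N (u a) (v a)) hx
  rw [map_sum, map_zero] at h1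
  simp only [map_smul] at h1
  have h2 : ∀ a' : Fin m, Xi N (u a) (v a) (b a' : Module.Dual ℂ S₂)
      = if a' = a then 1 else 0 := by
    intro a'
    rw [hcoord a _ (b a').2]
    have : (⟨(b a' : Module.Dual ℂ S₂), (b a').2⟩ : lat N) = b a' := rfl
    rw [this, Module.Basis.repr_self, Finsupp.single_apply]
    split_ifs <;> simp
  simp only [h2] at h1
  simpa using h1

/-- the first `q`-coefficient as a linear functional -/
noncomputable def a1 : Module.Dual ℂ S₂ where
  toFun f := ModularFormClass.qCoeff f 1
  map_add' f g := by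
    show ModularFormClass.qCoeff (⇑(f + g)) 1 = _
    rw [FunLike.coe_add]
    unfold ModularFormClass.qCoeff
    rw [ModularForm.qExpansion_add one_pos (one_mem_strictPeriods_Gamma0 N) f g]
    simp
  map_smul' c f := by
    show ModularFormClass.qCoeff (⇑(c • f)) 1 = _
    rw [FunLike.coe_smul]
    unfold ModularFormClass.qCoeff
    rw [ModularForm.qExpansion_smul one_pos (one_mem_strictPeriods_Gamma0 N) c f]
    simp

omit [NeZero N] in
theorem a1_apply (f : S₂) : a1 N f = ModularFormClass.qCoeff f 1 := rfl

/-- **S21 ⇒ S23**: the integral structure on weight-2 cusp forms from the surjectivity half of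
the Eichler–Shimura isomorphism. -/
theorem s23_of_s21
    (hsurj : LinearMap.range (periodHomPair N) = parabolicHoms ℂ (Gamma0 N) ℂ) :
    CuspForm.HasIntegralStructure N 2 := by
  have hfin : Module.Finite ℤ (CuspForm.heckeAlgebra N 2 ∅) := Fermat.Agent.S22.result N 2 ∅
  have key := IntAbs.span_integral_eq_top (V := S₂) (CuspForm.heckeAlgebra N 2 ∅)
    (fun s hs t ht => by
      have := mul_comm (⟨s, hs⟩ : CuspForm.heckeAlgebra N 2 ∅) ⟨t, ht⟩
      exact congrArg Subtype.val this)
    (lat N) (periodLatticeGamma0_fg N 0) (Sep.eq_zero_of_periodLattice_zero N 0)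
    (fun t ht l hl => comp_mem_of_mem_adjoin (CuspForm.heckeGenerators N 2 ∅) (lat N)
      (periodLatticeGamma0_stable N 0 ∅) ht l hl)
    (discrete N hsurj)
    conjForm conjForm_add conjForm_smul conjForm_involutive.surjective
    (fun t ht v => conjForm_hecke ht v)
    (a1 N) (fun v hv => Pairing.eq_zero_of_forall_qCoeff_one_eq_zero v hv)
  unfold CuspForm.HasIntegralStructure
  rw [eq_top_iff, ← key]
  refine Submodule.span_mono ?_
  intro f hf
  refine Submodule.subset_span ?_
  exact Pairing.qCoeff_int_of_forall_qCoeff_one_int (by norm_num) f hf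

end Fermat.Agent.M2.ES.S23Cond
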