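import Fermat.Agent.M2.ES.S21Cond
import Fermat.Agent.M2.ES.S23Cond

/-!
# M2 / ES block, final form: S20 ⇒ S21 and S20 ⇒ S23
-/

set_option autoImplicit false

open CongruenceSubgroup

namespace Fermat.Agent.M2.ES.Final

open ModularCurve ModularCurve.Period

/-- **S20 ⇒ S21** -/
theorem s21_of_s20 (N : ℕ) [NeZero N]
    (h20 : (Module.finrank ℂ (CuspForm (Gamma0 N) 2) : ℚ) = ModularCurve.genusFormula N) :
    Function.Injective (periodHomPair N) ∧
      LinearMap.range (periodHomPair N) = parabolicHoms ℂ (Gamma0 N) ℂ :=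
  S21Cond.s21_of_s20' N h20

/-- **S20 ⇒ S23** -/
theorem s23_of_s20 (N : ℕ) [NeZero N]
    (h20 : (Module.finrank ℂ (CuspForm (Gamma0 N) 2) : ℚ) = ModularCurve.genusFormula N) :
    CuspForm.HasIntegralStructure N 2 :=
  S23Cond.s23_of_s21 N (S21Cond.s21_of_s20' N h20).2

end Fermat.Agent.M2.ES.Final
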