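import Mathlib
import Fermat.Prelude.Def_ModularCurve_PeriodMap

/-!
# M2 / ES5: the cohomological bound for parabolic homomorphisms

For a group `G = ⟨S, U⟩` acting transitively on a finite set `X` with stabiliser `Γ` of a base
point, the space of homomorphisms `Γ → K` (`K` a field of characteristic zero) vanishing on the
conjugates of powers of `T = S⁻¹ U` lying in `Γ` has dimension at most
`|X| + 2 - o_S - o_U - o_T`, where `o_g` is the number of orbits of `⟨g⟩` on `X`, provided `S` and
`U` have finite order.  Specialised to `SL(2, ℤ)` this bounds the dimension of the parabolic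
cohomology (`parabolicHoms`) of a finite index subgroup by twice the genus.
-/

set_option autoImplicit false
set_option linter.unusedSectionVars false
set_option linter.style.longLine false
set_option linter.style.haveILetI false

noncomputable section

namespace Fermat.Agent.M2.ES.CohomBound

open Module

/-! ### Permutation modules -/

section PermModule

variable {G : Type*} [Group G] {X : Type*} [MulAction G X] (K : Type*) [Field K]

/-- The pull-back operator on functions: `(L g f) x = f (g • x)`. -/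
def L (g : G) : (X → K) →ₗ[K] (X → K) := LinearMap.funLeft K K (fun x : X => g • x)

@[simp] theorem L_apply (g : G) (f : X → K) (x : X) : L K g f x = f (g • x) := rfl

theorem L_mul (g h : G) : L (X := X) K (g * h) = L K h ∘ₗ L K g := by
  ext f x
  simp [mul_smul]

theorem L_mul_apply (g h : G) (f : X → K) : L K (g * h) f = L K h (L K g f) := by
  rw [L_mul]; rfl

@[simp] theorem L_one : L (X := X) K (1 : G) = LinearMap.id := by
  ext f x
  simp

theorem L_pow (g : G) (n : ℕ) : L (X := X) K (g ^ n) = (L K g) ^ n := by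
  induction n with
  | zero => simp [Module.End.one_eq_id]
  | succ n ih =>
    rw [pow_succ, L_mul, ih, pow_succ']
    rfl

/-- number of orbits of the cyclic group generated by `g` -/
def orbCount (X : Type*) [MulAction G X] (g : G) : ℕ :=
  Nat.card (MulAction.orbitRel.Quotient (Subgroup.zpowers g) X)

/-- the subgroup of elements leaving a function invariant -/
def fixSubgroup (f : X → K) : Subgroup G where
  carrier := {h | ∀ x, f (h • x) = f x}
  mul_mem' := fun {a b} ha hb x => by rw [mul_smul, ha, hb]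
  one_mem' := fun x => by rw [one_smul]
  inv_mem' := fun {a} ha x => by
    have := ha (a⁻¹ • x)
    rw [smul_inv_smul] at this
    exact this.symm

theorem mem_ker_L_sub_one {g : G} {f : X → K} :
    f ∈ LinearMap.ker (L (X := X) K g - 1) ↔ ∀ x, f (g • x) = f x := by
  rw [LinearMap.mem_ker, LinearMap.sub_apply, sub_eq_zero]
  constructor
  · intro h x
    exact congrFun h x
  · intro h
    funext x
    exact h x

theorem apply_smul_of_mem_zpowers {g : G} {f : X → K} (hf : ∀ x, f (g • x) = f x) {h : G}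
    (hh : h ∈ Subgroup.zpowers g) (x : X) : f (h • x) = f x := by
  have : Subgroup.zpowers g ≤ fixSubgroup K f := by
    rw [Subgroup.zpowers_le]
    exact hf
  exact this hh x

/-- functions on the orbit space, as invariant functions -/
def invMap (g : G) :
    (MulAction.orbitRel.Quotient (Subgroup.zpowers g) X → K) →ₗ[K]
      LinearMap.ker (L (X := X) K g - 1) where
  toFun c := ⟨fun x => c (Quotient.mk'' x), by
    rw [mem_ker_L_sub_one]
    intro x
    congr 1
    apply Quotient.sound'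
    exact ⟨⟨g, Subgroup.mem_zpowers g⟩, rfl⟩⟩
  map_add' _ _ := rfl
  map_smul' _ _ := rfl

theorem invMap_bijective (g : G) : Function.Bijective (invMap (X := X) K g) := by
  constructor
  · intro c c' h
    funext q
    induction q using Quotient.inductionOn' with
    | h x => exact congrFun (congrArg Subtype.val h) x
  · rintro ⟨f, hf⟩
    rw [mem_ker_L_sub_one] at hf
    refine ⟨fun q => Quotient.liftOn' q f ?_, ?_⟩
    · rintro a b ⟨⟨h, hh⟩, rfl⟩
      exact apply_smul_of_mem_zpowers K hf hh b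
    · apply Subtype.ext
      funext x
      rfl

theorem finrank_ker_L_sub_one [Finite X] (g : G) :
    finrank K (LinearMap.ker (L (X := X) K g - 1)) = orbCount X g := by
  have e := LinearEquiv.ofBijective (invMap (X := X) K g) (invMap_bijective K g)
  rw [← e.finrank_eq]
  haveI : Fintype (MulAction.orbitRel.Quotient (Subgroup.zpowers g) X) := Fintype.ofFinite _
  rw [Module.finrank_fintype_fun_eq_card, orbCount, Nat.card_eq_fintype_card]

theorem finrank_range_L_sub_one [Finite X] (g : G) :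
    finrank K (LinearMap.range (L (X := X) K g - 1)) + orbCount X g = Nat.card X := by
  haveI : Fintype X := Fintype.ofFinite _
  have h := LinearMap.finrank_range_add_finrank_ker (L (X := X) K g - 1)
  rw [finrank_ker_L_sub_one, Module.finrank_fintype_fun_eq_card] at h
  rw [h, Nat.card_eq_fintype_card]

/-- If the "norm" `∑_{i<n} Λ^i` kills `f` and `n` is invertible then `f ∈ range (Λ - 1)`. -/
theorem mem_range_sub_one_of_geom_sum_eq_zero {E : Type*} [AddCommGroup E] [Module K E]
    (Λ : Module.End K E) (n : ℕ) (hn : (n : K) ≠ 0) (f : E)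
    (h : (∑ i ∈ Finset.range n, Λ ^ i) f = 0) : f ∈ LinearMap.range (Λ - 1) := by
  have h1 : ∀ i : ℕ, (Λ ^ i - 1) f ∈ LinearMap.range (Λ - 1) := by
    intro i
    rw [← mul_geom_sum]
    exact ⟨(∑ j ∈ Finset.range i, Λ ^ j) f, rfl⟩
  have h2 : (n : K) • f = - ∑ i ∈ Finset.range n, (Λ ^ i - 1) f := by
    have h' : ∑ i ∈ Finset.range n, (Λ ^ i) f = 0 := by
      rw [← LinearMap.sum_apply]; exact h
    simp only [LinearMap.sub_apply, Finset.sum_sub_distrib, Module.End.one_apply, Finset.sum_const,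
      Finset.card_range, h', zero_sub, neg_neg]
    rw [Nat.cast_smul_eq_nsmul]
  have h3 : (n : K) • f ∈ LinearMap.range (Λ - 1) := by
    rw [h2]
    exact Submodule.neg_mem _ (Submodule.sum_mem _ fun i _ => h1 i)
  have := Submodule.smul_mem _ ((n : K)⁻¹) h3
  rwa [smul_smul, inv_mul_cancel₀ hn, one_smul] at this

/-! ### Cocycles -/

/-- `c : G → (X → K)` is a cocycle for the right action `f ↦ L g f` on functions. -/
def IsCocycle (c : G → X → K) : Prop := ∀ g h, c (g * h) = L K h (c g) + c h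

variable {K}

theorem IsCocycle.map_one {c : G → X → K} (hc : IsCocycle K c) : c 1 = 0 := by
  have := hc 1 1
  rw [mul_one, L_one, LinearMap.id_apply] at this
  exact left_eq_add.mp this

theorem IsCocycle.map_inv {c : G → X → K} (hc : IsCocycle K c) (g : G) :
    c g⁻¹ = - L K g⁻¹ (c g) := by
  have := hc g g⁻¹
  rw [mul_inv_cancel, hc.map_one] at this
  exact eq_neg_of_add_eq_zero_right this.symm

theorem IsCocycle.map_pow {c : G → X → K} (hc : IsCocycle K c) (g : G) (n : ℕ) :
    c (g ^ n) = (∑ i ∈ Finset.range n, (L K g) ^ i) (c g) := by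
  induction n with
  | zero => simp [hc.map_one]
  | succ n ih =>
    rw [pow_succ, hc, ih, Finset.sum_range_succ', LinearMap.add_apply, pow_zero,
      Module.End.one_apply, LinearMap.sum_apply, LinearMap.sum_apply, map_sum]
    congr 1
    refine Finset.sum_congr rfl fun i _ => ?_
    rw [pow_succ']
    rfl

theorem IsCocycle.map_inv_mul {c : G → X → K} (hc : IsCocycle K c) (a b : G) :
    c (a⁻¹ * b) = c b - L K (a⁻¹ * b) (c a) := by
  rw [hc, hc.map_inv, map_neg, L_mul_apply]
  abel

theorem IsCocycle.add {c d : G → X → K} (hc : IsCocycle K c) (hd : IsCocycle K d) :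
    IsCocycle K (fun g => c g + d g) := by
  intro g h
  simp only [hc g h, hd g h, map_add]
  abel

theorem isCocycle_coboundary (v : X → K) : IsCocycle K (fun g : G => (L K g - 1) v) := by
  intro g h
  simp only [LinearMap.sub_apply, Module.End.one_apply, L_mul_apply, map_sub]
  abel

/-- the subgroup on which a cocycle vanishes -/
def IsCocycle.zeroSubgroup {c : G → X → K} (hc : IsCocycle K c) : Subgroup G where
  carrier := {g | c g = 0}
  mul_mem' := fun {a b} ha hb => by
    change c (a * b) = 0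
    rw [hc, show c a = 0 from ha, show c b = 0 from hb, map_zero, add_zero]
  one_mem' := hc.map_one
  inv_mem' := fun {a} ha => by
    change c a⁻¹ = 0
    rw [hc.map_inv, show c a = 0 from ha, map_zero, neg_zero]

theorem IsCocycle.eq_zero_of_closure {c : G → X → K} (hc : IsCocycle K c) {s : Set G}
    (hs : Subgroup.closure s = ⊤) (h0 : ∀ g ∈ s, c g = 0) (g : G) : c g = 0 := by
  have h1 : Subgroup.closure s ≤ hc.zeroSubgroup := (Subgroup.closure_le _).mpr h0
  rw [hs] at h1
  exact h1 (Subgroup.mem_top g)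

/-- a cocycle takes values in `range (L g - 1)` at elements `g` with `c (g ^ n) = 0`, `n ≠ 0` -/
theorem IsCocycle.mem_range {c : G → X → K} (hc : IsCocycle K c) (g : G) (n : ℕ)
    (hn : (n : K) ≠ 0) (h : c (g ^ n) = 0) : c g ∈ LinearMap.range (L (X := X) K g - 1) := by
  apply mem_range_sub_one_of_geom_sum_eq_zero K (L K g) n hn
  rw [← hc.map_pow, h]

variable (K)

/-! ### Functions with zero sum -/

/-- the subgroup of `g` such that `(L g - 1) f ∈ W` for all `f` -/
def genSubgroup (W : Submodule K (X → K)) : Subgroup G where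
  carrier := {g | ∀ f, (L K g - 1) f ∈ W}
  mul_mem' := fun {a b} ha hb f => by
    have : (L K (a * b) - 1) f = (L K b - 1) (L K a f) + (L K a - 1) f := by
      simp only [LinearMap.sub_apply, Module.End.one_apply, L_mul_apply]
      abel
    rw [this]
    exact W.add_mem (hb _) (ha _)
  one_mem' := fun f => by simp
  inv_mem' := fun {a} ha f => by
    have : (L K a⁻¹ - 1) f = - (L K a - 1) (L K a⁻¹ f) := by
      simp only [LinearMap.sub_apply, Module.End.one_apply, ← L_mul_apply, inv_mul_cancel, L_one,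
        LinearMap.id_apply]
      abel
    rw [this]
    exact W.neg_mem (ha _)

theorem mem_of_sum_eq_zero [Fintype X] [MulAction.IsPretransitive G X]
    {W : Submodule K (X → K)} (hW : ∀ (g : G) (f : X → K), (L K g - 1) f ∈ W) {f : X → K}
    (hf : ∑ x, f x = 0) : f ∈ W := by
  classical
  rcases isEmpty_or_nonempty X with hX | ⟨⟨x0⟩⟩
  · have : f = 0 := by
      funext x
      exact (hX.false x).elim
    rw [this]
    exact W.zero_mem
  have key : ∀ x : X, (Pi.single x 1 - Pi.single x0 1 : X → K) ∈ W := by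
    intro x
    obtain ⟨g, hg⟩ := MulAction.exists_smul_eq G x x0
    have h1 := hW g (Pi.single x0 1)
    convert h1 using 1
    funext z
    simp only [Pi.sub_apply, Pi.single_apply, LinearMap.sub_apply, L_apply, Module.End.one_apply]
    congr 1
    have : g • z = x0 ↔ z = x := by
      rw [← hg]
      exact smul_left_cancel_iff g
    simp only [this]
  have hsum : f = ∑ x, f x • (Pi.single x 1 - Pi.single x0 1 : X → K) := by
    funext z
    simp only [Finset.sum_apply, Pi.smul_apply, Pi.sub_apply, Pi.single_apply, smul_eq_mul,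
      mul_sub, Finset.sum_sub_distrib, mul_ite, mul_one, mul_zero, Finset.sum_ite_eq,
      Finset.mem_univ, if_true]
    split_ifs with h
    · rw [hf, sub_zero]
    · simp
  rw [hsum]
  exact W.sum_mem fun x _ => W.smul_mem _ (key x)

end PermModule

/-! ### The Shapiro cocycle -/

section Shapiro

variable (G : Type*) [Group G] {X : Type*} [MulAction G X] [MulAction.IsPretransitive G X]
  (K : Type*) [Field K] (x0 : X)

/-- coset representatives: `rep x • x0 = x` -/
def rep (x : X) : G := (MulAction.exists_smul_eq G x0 x).choose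

theorem rep_smul (x : X) : rep G x0 x • x0 = x := (MulAction.exists_smul_eq G x0 x).choose_spec

variable {G} (Γ : Subgroup G) (hΓ : ∀ g, g ∈ Γ ↔ g • x0 = x0)

include hΓ in
theorem shapiro_mem (g : G) (x : X) : (rep G x0 (g • x))⁻¹ * g * rep G x0 x ∈ Γ := by
  rw [hΓ, mul_smul, mul_smul, rep_smul, inv_smul_eq_iff, rep_smul]

/-- The Shapiro cocycle attached to a homomorphism `φ : Γ → K`, linear in `φ`. -/
def coc (g : G) : (Additive Γ →+ K) →ₗ[K] (X → K) where
  toFun φ x := φ (Additive.ofMul ⟨_, shapiro_mem x0 Γ hΓ g x⟩)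
  map_add' _ _ := rfl
  map_smul' _ _ := rfl

theorem coc_apply (g : G) (φ : Additive Γ →+ K) (x : X) :
    coc K x0 Γ hΓ g φ x = φ (Additive.ofMul ⟨_, shapiro_mem x0 Γ hΓ g x⟩) := rfl

theorem map_ofMul_eq_add (φ : Additive Γ →+ K) {a b c : Γ} (h : (a : G) = b * c) :
    φ (Additive.ofMul a) = φ (Additive.ofMul b) + φ (Additive.ofMul c) := by
  have : a = b * c := Subtype.ext h
  rw [this, ofMul_mul, map_add]

theorem coc_isCocycle (φ : Additive Γ →+ K) : IsCocycle K (fun g => coc K x0 Γ hΓ g φ) := by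
  intro g h
  funext x
  simp only [Pi.add_apply, L_apply, coc_apply]
  apply map_ofMul_eq_add
  simp only [mul_smul]
  group

/-- conjugation invariance of a homomorphism to an abelian group -/
theorem map_conj_eq (φ : Additive Γ →+ K) (γ ρ : Γ) {a : Γ} (h : (a : G) = (ρ : G)⁻¹ * γ * ρ) :
    φ (Additive.ofMul a) = φ (Additive.ofMul γ) := by
  have : a = ρ⁻¹ * γ * ρ := Subtype.ext h
  rw [this, ofMul_mul, ofMul_mul, map_add, map_add, ofMul_inv, map_neg]
  abel

theorem coc_apply_base (φ : Additive Γ →+ K) (γ : Γ) :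
    coc K x0 Γ hΓ (γ : G) φ x0 = φ (Additive.ofMul γ) := by
  rw [coc_apply]
  have hγ : (γ : G) • x0 = x0 := (hΓ _).mp γ.2
  have hρ : rep G x0 x0 ∈ Γ := (hΓ _).mpr (rep_smul G x0 x0)
  refine map_conj_eq K Γ φ γ ⟨_, hρ⟩ ?_
  simp only [hγ]

end Shapiro

/-! ### The abstract bound -/

section Main

variable {G : Type*} [Group G] {X : Type*} [MulAction G X] [MulAction.IsPretransitive G X]
  (K : Type*) [Field K] (x0 : X) (Γ : Subgroup G) (hΓ : ∀ g, g ∈ Γ ↔ g • x0 = x0)

/-- the cocycle `g ↦ coc g φ + (L g - 1) v` attached to a pair `(φ, v)`, linear in the pair -/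
def psi (g : G) : (Additive Γ →+ K) × (X → K) →ₗ[K] (X → K) :=
  (coc K x0 Γ hΓ g).coprod (L K g - 1)

theorem psi_apply (g : G) (p : (Additive Γ →+ K) × (X → K)) :
    psi K x0 Γ hΓ g p = coc K x0 Γ hΓ g p.1 + (L K g - 1) p.2 := rfl

theorem psi_isCocycle (p : (Additive Γ →+ K) × (X → K)) :
    IsCocycle K (fun g => psi K x0 Γ hΓ g p) :=
  (coc_isCocycle K x0 Γ hΓ p.1).add (isCocycle_coboundary p.2)

theorem psi_mem_range_of_isOfFinOrder [CharZero K] {g : G} (hg : IsOfFinOrder g)
    (p : (Additive Γ →+ K) × (X → K)) :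
    psi K x0 Γ hΓ g p ∈ LinearMap.range (L (X := X) K g - 1) := by
  refine (psi_isCocycle K x0 Γ hΓ p).mem_range g (orderOf g) ?_ ?_
  · exact Nat.cast_ne_zero.mpr hg.orderOf_pos.ne'
  · rw [pow_orderOf_eq_one]
    exact (psi_isCocycle K x0 Γ hΓ p).map_one

theorem exists_pos_pow_smul_eq [Finite X] (g : G) : ∃ n : ℕ, 0 < n ∧ ∀ x : X, g ^ n • x = x := by
  haveI : Finite (Equiv.Perm X) := inferInstance
  refine ⟨orderOf (MulAction.toPermHom G X g), orderOf_pos _, fun x => ?_⟩
  have h := pow_orderOf_eq_one (MulAction.toPermHom G X g)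
  rw [← map_pow] at h
  have := congrArg (fun σ : Equiv.Perm X => σ x) h
  simpa using this

theorem psi_mem_range_of_parabolic [CharZero K] [Finite X] (T : G)
    (p : (Additive Γ →+ K) × (X → K))
    (hp : ∀ γ : Γ, (∃ (g : G) (n : ℕ), (γ : G) = g⁻¹ * T ^ n * g) → p.1 (Additive.ofMul γ) = 0) :
    psi K x0 Γ hΓ T p ∈ LinearMap.range (L (X := X) K T - 1) := by
  obtain ⟨n, hn, hfix⟩ := exists_pos_pow_smul_eq (X := X) T
  refine (psi_isCocycle K x0 Γ hΓ p).mem_range T n (Nat.cast_ne_zero.mpr hn.ne') ?_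
  funext x
  rw [psi_apply]
  simp only [Pi.add_apply, LinearMap.sub_apply, L_apply, Module.End.one_apply, Pi.sub_apply, hfix,
    sub_self, add_zero, Pi.zero_apply, coc_apply]
  apply hp
  exact ⟨rep G x0 x, n, rfl⟩

theorem eq_zero_of_psi_eq_zero {S U : G} (hgen : Subgroup.closure {S, U} = ⊤)
    (p : (Additive Γ →+ K) × (X → K)) (hS : psi K x0 Γ hΓ S p = 0) (hU : psi K x0 Γ hΓ U p = 0) :
    p.1 = 0 ∧ ∀ x, p.2 x = p.2 x0 := by
  have hc := psi_isCocycle K x0 Γ hΓ p
  have h0 : ∀ g, psi K x0 Γ hΓ g p = 0 := by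
    refine hc.eq_zero_of_closure hgen ?_
    intro g hg
    rcases hg with rfl | rfl
    · exact hS
    · exact hU
  have h1 : p.1 = 0 := by
    refine AddMonoidHom.ext fun γ => ?_
    obtain ⟨γ, rfl⟩ := Additive.ofMul.surjective γ
    have := congrFun (h0 (γ : G)) x0
    rw [psi_apply] at this
    simp only [Pi.add_apply, LinearMap.sub_apply, L_apply, Module.End.one_apply, Pi.sub_apply,
      Pi.zero_apply, coc_apply_base, (hΓ _).mp γ.2, sub_self, add_zero] at this
    simpa using this
  refine ⟨h1, fun x => ?_⟩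
  have := congrFun (h0 (rep G x0 x)) x0
  rw [psi_apply, h1] at this
  simp only [map_zero, zero_add, LinearMap.sub_apply, L_apply, Module.End.one_apply, Pi.sub_apply,
    Pi.zero_apply, rep_smul, sub_eq_zero] at this
  exact this

end Main

/-! ### Counting dimensions -/

section Count

theorem finrank_ker_add_one (K : Type*) [Field K] {V : Type*} [AddCommGroup V] [Module K V]
    [Module.Finite K V] (ℓ : V →ₗ[K] K) (h : Function.Surjective ℓ) :
    finrank K (LinearMap.ker ℓ) + 1 = finrank K V := by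
  have := LinearMap.finrank_range_add_finrank_ker ℓ
  rw [LinearMap.range_eq_top.mpr h, finrank_top, finrank_self] at this
  omega

variable {G : Type*} [Group G] {X : Type*} [MulAction G X]
  (K : Type*) [Field K] (x0 : X)

/-- functions vanishing at the base point -/
def V0 : Submodule K (X → K) := LinearMap.ker (LinearMap.proj x0 : (X → K) →ₗ[K] K)

theorem mem_V0 {v : X → K} : v ∈ V0 K x0 ↔ v x0 = 0 := by
  rw [V0, LinearMap.mem_ker, LinearMap.proj_apply]

theorem finrank_V0 [Finite X] : finrank K (V0 K x0) + 1 = Nat.card X := by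
  classical
  haveI : Fintype X := Fintype.ofFinite _
  rw [V0, finrank_ker_add_one K _ (LinearMap.proj_surjective x0),
    Module.finrank_fintype_fun_eq_card, Nat.card_eq_fintype_card]

/-- the sum functional -/
def sumL (X : Type*) [Fintype X] : (X → K) →ₗ[K] K := ∑ x, LinearMap.proj x

theorem sumL_apply [Fintype X] (f : X → K) : sumL K X f = ∑ x, f x := by
  simp [sumL, LinearMap.sum_apply]

theorem finrank_ker_sumL [Fintype X] [Nonempty X] :
    finrank K (LinearMap.ker (sumL K X)) + 1 = Nat.card X := by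
  classical
  obtain ⟨x0⟩ := ‹Nonempty X›
  have hs : Function.Surjective (sumL K X) := by
    intro c
    refine ⟨Pi.single x0 c, ?_⟩
    rw [sumL_apply, Finset.sum_pi_single']
    simp
  rw [finrank_ker_add_one K _ hs, Module.finrank_fintype_fun_eq_card, Nat.card_eq_fintype_card]

variable (S U T : G)

/-- the target of the comparison map -/
abbrev Tgt : Type _ :=
  ↥(LinearMap.range (L (X := X) K S - 1)) × ↥(LinearMap.range (L (X := X) K U - 1)) ×
    ↥(LinearMap.range (L (X := X) K T - 1))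

/-- `(a, b, t) ↦ b - L T a - t` -/
def bigPi : Tgt (X := X) K S U T →ₗ[K] (X → K) where
  toFun m := (m.2.1 : X → K) - L K T (m.1 : X → K) - (m.2.2 : X → K)
  map_add' m m' := by
    simp only [Prod.fst_add, Prod.snd_add, Submodule.coe_add, map_add]
    abel
  map_smul' c m := by
    simp only [Prod.smul_fst, Prod.smul_snd, Submodule.coe_smul, map_smul, RingHom.id_apply,
      smul_sub]

theorem bigPi_apply (m : Tgt (X := X) K S U T) :
    bigPi K S U T m = (m.2.1 : X → K) - L K T (m.1 : X → K) - (m.2.2 : X → K) := rfl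

theorem finrank_Tgt [Finite X] :
    finrank K (Tgt (X := X) K S U T) + orbCount X S + orbCount X U + orbCount X T =
      3 * Nat.card X := by
  have h1 := finrank_range_L_sub_one (X := X) K S
  have h2 := finrank_range_L_sub_one (X := X) K U
  have h3 := finrank_range_L_sub_one (X := X) K T
  rw [Module.finrank_prod, Module.finrank_prod]
  omega

theorem ker_sumL_le_range_bigPi [Fintype X] [MulAction.IsPretransitive G X]
    (hgen : Subgroup.closure {S, U} = ⊤) (hT : T = S⁻¹ * U) :
    LinearMap.ker (sumL K X) ≤ LinearMap.range (bigPi (X := X) K S U T) := by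
  set W := LinearMap.range (bigPi (X := X) K S U T) with hW
  have hUmem : U ∈ genSubgroup (G := G) K W := by
    intro f
    refine ⟨(0, ⟨(L K U - 1) f, LinearMap.mem_range_self _ f⟩, 0), ?_⟩
    simp [bigPi_apply]
  have hTmem : T ∈ genSubgroup (G := G) K W := by
    intro f
    refine ⟨(0, 0, ⟨(L K T - 1) (-f), LinearMap.mem_range_self _ _⟩), ?_⟩
    simp [bigPi_apply]
    abel
  have hSTmem : S * T ∈ genSubgroup (G := G) K W := by
    intro f
    have h1 : L K T ((L K S - 1) f) ∈ W := by
      refine ⟨(⟨(L K S - 1) (-f), LinearMap.mem_range_self _ _⟩, 0, 0), ?_⟩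
      simp [bigPi_apply]
      abel
    have h2 : (L K (S * T) - 1) f = L K T ((L K S - 1) f) + (L K T - 1) f := by
      simp only [LinearMap.sub_apply, Module.End.one_apply, L_mul_apply, map_sub]
      abel
    rw [h2]
    exact W.add_mem h1 (hTmem f)
  have hSmem : S ∈ genSubgroup (G := G) K W := by
    have := (genSubgroup (G := G) K W).mul_mem hSTmem ((genSubgroup (G := G) K W).inv_mem hTmem)
    simpa using this
  have htop : genSubgroup (G := G) K W = ⊤ := by
    rw [eq_top_iff, ← hgen, Subgroup.closure_le]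
    rintro g (rfl | rfl)
    · exact hSmem
    · exact hUmem
  intro f hf
  rw [LinearMap.mem_ker, sumL_apply] at hf
  refine mem_of_sum_eq_zero (G := G) K (fun g f' => ?_) hf
  have : g ∈ genSubgroup (G := G) K W := by rw [htop]; exact Subgroup.mem_top g
  exact this f'

end Count

/-! ### The comparison map and the abstract theorem -/

section Abstract

variable {G : Type*} [Group G] {X : Type*} [Finite X] [MulAction G X]
  [MulAction.IsPretransitive G X]
  (K : Type*) [Field K] [CharZero K] (x0 : X) (Γ : Subgroup G) (hΓ : ∀ g, g ∈ Γ ↔ g • x0 = x0)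
  (S U T : G) (hS : IsOfFinOrder S) (hU : IsOfFinOrder U)
  (P : Submodule K (Additive Γ →+ K))
  (hP : ∀ φ ∈ P, ∀ γ : Γ, (∃ (g : G) (n : ℕ), (γ : G) = g⁻¹ * T ^ n * g) →
    φ (Additive.ofMul γ) = 0)

/-- inclusion of the domain `P × V0` into pairs -/
def incl : (↥P × ↥(V0 K x0)) →ₗ[K] (Additive Γ →+ K) × (X → K) :=
  P.subtype.prodMap (V0 K x0).subtype

/-- the comparison map `(φ, v) ↦ (ψ_S, ψ_U, ψ_T)` -/
def Theta : (↥P × ↥(V0 K x0)) →ₗ[K] Tgt (X := X) K S U T :=
  (LinearMap.codRestrict _ (psi K x0 Γ hΓ S ∘ₗ incl K x0 Γ P)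
      (fun _ => psi_mem_range_of_isOfFinOrder K x0 Γ hΓ hS _)).prod
    ((LinearMap.codRestrict _ (psi K x0 Γ hΓ U ∘ₗ incl K x0 Γ P)
      (fun _ => psi_mem_range_of_isOfFinOrder K x0 Γ hΓ hU _)).prod
    (LinearMap.codRestrict _ (psi K x0 Γ hΓ T ∘ₗ incl K x0 Γ P)
      (fun d => psi_mem_range_of_parabolic K x0 Γ hΓ T _ (hP _ d.1.2))))

theorem Theta_injective (hgen : Subgroup.closure {S, U} = ⊤) :
    Function.Injective (Theta K x0 Γ hΓ S U T hS hU P hP) := by
  rw [injective_iff_map_eq_zero]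
  intro d hd
  have h1 : psi K x0 Γ hΓ S (incl K x0 Γ P d) = 0 := by
    have := congrArg (fun m : Tgt (X := X) K S U T => (m.1 : X → K)) hd
    exact this
  have h2 : psi K x0 Γ hΓ U (incl K x0 Γ P d) = 0 := by
    have := congrArg (fun m : Tgt (X := X) K S U T => (m.2.1 : X → K)) hd
    exact this
  obtain ⟨h3, h4⟩ := eq_zero_of_psi_eq_zero K x0 Γ hΓ hgen _ h1 h2
  have h5 : (d.2 : X → K) x0 = 0 := (mem_V0 K x0).mp d.2.2
  apply Prod.ext
  · apply Subtype.ext
    exact h3
  · apply Subtype.ext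
    funext x
    have := h4 x
    simp only [incl, LinearMap.prodMap_apply, Submodule.subtype_apply] at this
    rw [this, h5]
    rfl

theorem bigPi_Theta (hT : T = S⁻¹ * U) (d : ↥P × ↥(V0 K x0)) :
    bigPi K S U T (Theta K x0 Γ hΓ S U T hS hU P hP d) = 0 := by
  have hc := psi_isCocycle K x0 Γ hΓ (incl K x0 Γ P d)
  have := hc.map_inv_mul S U
  rw [← hT] at this
  rw [bigPi_apply]
  change psi K x0 Γ hΓ U (incl K x0 Γ P d) - L K T (psi K x0 Γ hΓ S (incl K x0 Γ P d))
    - psi K x0 Γ hΓ T (incl K x0 Γ P d) = 0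
  rw [this]
  abel

include x0 hΓ hS hU hP in
/-- **The abstract bound.** -/
theorem finrank_add_orbCount_le (hgen : Subgroup.closure {S, U} = ⊤) (hT : T = S⁻¹ * U) :
    Module.Finite K P ∧
      finrank K P + orbCount X S + orbCount X U + orbCount X T ≤ Nat.card X + 2 := by
  classical
  haveI : Fintype X := Fintype.ofFinite _
  haveI : Nonempty X := ⟨x0⟩
  have hinj := Theta_injective K x0 Γ hΓ S U T hS hU P hP hgen
  haveI : Module.Finite K (↥P × ↥(V0 K x0)) := Module.Finite.of_injective _ hinj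
  haveI : Module.Finite K P :=
    Module.Finite.of_surjective (LinearMap.fst K ↥P ↥(V0 K x0)) LinearMap.fst_surjective
  refine ⟨inferInstance, ?_⟩
  haveI : Module.Free K P := Module.Free.of_divisionRing K P
  have h1 : LinearMap.range (Theta K x0 Γ hΓ S U T hS hU P hP) ≤
      LinearMap.ker (bigPi (X := X) K S U T) := by
    rintro _ ⟨d, rfl⟩
    exact bigPi_Theta K x0 Γ hΓ S U T hS hU P hP hT d
  have h2 := Submodule.finrank_mono h1
  rw [LinearMap.finrank_range_of_inj hinj, Module.finrank_prod] at h2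
  have h3 := LinearMap.finrank_range_add_finrank_ker (bigPi (X := X) K S U T)
  have h4 := Submodule.finrank_mono (ker_sumL_le_range_bigPi (G := G) (X := X) K S U T hgen hT)
  have h5 := finrank_ker_sumL (X := X) K
  have h6 := finrank_V0 K x0
  have h7 := finrank_Tgt (X := X) K S U T
  have h8 : 0 < Nat.card X := Nat.card_pos
  omega

end Abstract

/-! ### Orbit counts from fixed point counts (Burnside for a cyclic group, via traces) -/

section Burnside

variable {G : Type*} [Group G] {X : Type*} [Fintype X] [MulAction G X] (K : Type*) [Field K]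

theorem trace_L (h : G) :
    LinearMap.trace K (X → K) (L K h) = (Nat.card (MulAction.fixedBy X h) : K) := by
  classical
  rw [LinearMap.trace_eq_matrix_trace K (Pi.basisFun K X), Matrix.trace]
  simp only [Matrix.diag_apply, LinearMap.toMatrix_apply, Pi.basisFun_apply, Pi.basisFun_repr,
    L_apply, Pi.single_apply]
  rw [Finset.sum_boole, Nat.card_eq_fintype_card]
  congr 1
  rw [Fintype.card_subtype]
  rfl

/-- the averaging operator `(1/n) ∑_{i<n} L^i` -/
def avg (g : G) (n : ℕ) : Module.End K (X → K) := (n : K)⁻¹ • ∑ i ∈ Finset.range n, (L K g) ^ i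

theorem isProj_avg (g : G) (n : ℕ) (hn : (n : K) ≠ 0) (hfix : ∀ x : X, g ^ n • x = x) :
    LinearMap.IsProj (LinearMap.ker (L (X := X) K g - 1)) (avg (X := X) K g n) := by
  have hLn : (L (X := X) K g) ^ n = 1 := by
    rw [← L_pow]
    ext f x
    simp [hfix]
  constructor
  · intro f
    rw [LinearMap.mem_ker, avg, LinearMap.smul_apply, map_smul, ← Module.End.mul_apply,
      mul_geom_sum, hLn, sub_self, LinearMap.zero_apply, smul_zero]
  · intro f hf
    rw [LinearMap.mem_ker, LinearMap.sub_apply, sub_eq_zero, Module.End.one_apply] at hf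
    have h1 : ∀ i : ℕ, ((L K g) ^ i) f = f := by
      intro i
      induction i with
      | zero => simp
      | succ i ih => rw [pow_succ, Module.End.mul_apply, hf, ih]
    rw [avg, LinearMap.smul_apply, LinearMap.sum_apply]
    simp only [h1, Finset.sum_const, Finset.card_range]
    rw [← Nat.cast_smul_eq_nsmul K, smul_smul, inv_mul_cancel₀ hn, one_smul]

/-- **Burnside for a cyclic group**: if `g ^ n` acts trivially then
`n * #orbits = ∑_{i<n} #Fix(g ^ i)`. -/
theorem mul_orbCount_eq_sum [CharZero K] (g : G) (n : ℕ) (hn : n ≠ 0)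
    (hfix : ∀ x : X, g ^ n • x = x) :
    n * orbCount X g = ∑ i ∈ Finset.range n, Nat.card (MulAction.fixedBy X (g ^ i)) := by
  have hn' : (n : K) ≠ 0 := Nat.cast_ne_zero.mpr hn
  have h1 := (isProj_avg (X := X) K g n hn' hfix).trace
  rw [finrank_ker_L_sub_one, avg, map_smul, map_sum] at h1
  simp only [← L_pow, trace_L] at h1
  rw [smul_eq_mul, inv_mul_eq_iff_eq_mul₀ hn'] at h1
  have h2 : ((∑ i ∈ Finset.range n, Nat.card (MulAction.fixedBy X (g ^ i)) : ℕ) : K) =
      ((n * orbCount X g : ℕ) : K) := by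
    push_cast
    exact h1
  exact (Nat.cast_injective h2).symm

theorem two_mul_orbCount (g : G) (hfix : ∀ x : X, g ^ 2 • x = x) :
    2 * orbCount X g = Nat.card X + Nat.card (MulAction.fixedBy X g) := by
  have h := mul_orbCount_eq_sum (X := X) ℚ g 2 two_ne_zero hfix
  rw [Finset.sum_range_succ, Finset.sum_range_one, pow_zero, pow_one] at h
  rw [h]
  congr 1
  have : MulAction.fixedBy X (1 : G) = Set.univ := by
    ext x; simp
  rw [this, Nat.card_coe_set_eq, Set.ncard_univ]

theorem three_mul_orbCount (g : G) (hfix : ∀ x : X, g ^ 3 • x = x) :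
    3 * orbCount X g = Nat.card X + 2 * Nat.card (MulAction.fixedBy X g) := by
  have h := mul_orbCount_eq_sum (X := X) ℚ g 3 three_ne_zero hfix
  rw [Finset.sum_range_succ, Finset.sum_range_succ, Finset.sum_range_one, pow_zero, pow_one] at h
  have h1 : MulAction.fixedBy X (1 : G) = Set.univ := by
    ext x; simp
  have h2 : MulAction.fixedBy X (g ^ 2) = MulAction.fixedBy X g := by
    ext x
    simp only [MulAction.mem_fixedBy]
    constructor
    · intro hx
      have h3 := hfix x
      have : g ^ 3 • x = g • (g ^ 2 • x) := by rw [← mul_smul, ← pow_succ']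
      rw [this, hx] at h3
      exact h3
    · intro hx
      rw [pow_two, mul_smul, hx, hx]
  rw [h1, h2, Nat.card_coe_set_eq, Set.ncard_univ] at h
  omega

end Burnside

/-! ### Specialisation to `SL(2, ℤ)` -/

section SL2Z

open Matrix ModularGroup MatrixGroups ModularCurve.Period

theorem S_pow_four : (S : SL(2, ℤ)) ^ 4 = 1 := by
  ext i j
  fin_cases i <;> fin_cases j <;>
    simp [pow_succ, coe_S, Matrix.mul_apply, Fin.sum_univ_two]

theorem ST_pow_six : ((S : SL(2, ℤ)) * T) ^ 6 = 1 := by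
  ext i j
  fin_cases i <;> fin_cases j <;>
    simp [pow_succ, coe_S, coe_T, Matrix.mul_apply, Fin.sum_univ_two]

theorem closure_S_ST : Subgroup.closure {(S : SL(2, ℤ)), S * T} = ⊤ := by
  rw [eq_top_iff, ← _root_.SpecialLinearGroup.SL2Z_generators, Subgroup.closure_le]
  rintro g (rfl | rfl)
  · exact Subgroup.subset_closure (by simp)
  · have h1 : (S : SL(2, ℤ)) ∈ Subgroup.closure {(S : SL(2, ℤ)), S * T} :=
      Subgroup.subset_closure (by simp)
    have h2 : (S : SL(2, ℤ)) * T ∈ Subgroup.closure {(S : SL(2, ℤ)), S * T} :=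
      Subgroup.subset_closure (by simp)
    have := Subgroup.mul_mem _ (Subgroup.inv_mem _ h1) h2
    simpa using this

theorem trace_conj_T_pow (g : SL(2, ℤ)) (n : ℕ) :
    ((g⁻¹ * T ^ n * g : SL(2, ℤ)) : Matrix (Fin 2) (Fin 2) ℤ).trace = 2 := by
  rw [Matrix.SpecialLinearGroup.coe_mul, Matrix.SpecialLinearGroup.coe_mul,
    Matrix.trace_mul_cycle, ← Matrix.SpecialLinearGroup.coe_mul, mul_inv_cancel,
    Matrix.SpecialLinearGroup.coe_one, one_mul, ← zpow_natCast, coe_T_zpow]
  simp [Matrix.trace_fin_two]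

variable (Γ : Subgroup SL(2, ℤ))

/-- the number of orbits of `⟨g⟩` on the coset space `SL(2, ℤ) ⧸ Γ` -/
def orb (g : SL(2, ℤ)) : ℕ :=
  Nat.card (MulAction.orbitRel.Quotient (Subgroup.zpowers g) (SL(2, ℤ) ⧸ Γ))

theorem orb_eq_orbCount (g : SL(2, ℤ)) : orb Γ g = orbCount (SL(2, ℤ) ⧸ Γ) g := rfl

theorem mem_iff_smul_one (g : SL(2, ℤ)) :
    g ∈ Γ ↔ g • ((1 : SL(2, ℤ)) : SL(2, ℤ) ⧸ Γ) = ((1 : SL(2, ℤ)) : SL(2, ℤ) ⧸ Γ) := by
  rw [MulAction.Quotient.smul_coe, smul_eq_mul, mul_one, QuotientGroup.eq, mul_one,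
    Subgroup.inv_mem_iff]

/-- **ES5**: the cohomological bound for parabolic homomorphisms of a finite index subgroup of
`SL(2, ℤ)`, together with finite-dimensionality. -/
theorem finite_and_finrank_parabolicHoms_le [Γ.FiniteIndex] :
    Module.Finite ℂ (parabolicHoms ℂ Γ ℂ) ∧
      finrank ℂ (parabolicHoms ℂ Γ ℂ) + orb Γ S + orb Γ (S * T) + orb Γ T ≤ Γ.index + 2 := by
  haveI : Finite (SL(2, ℤ) ⧸ Γ) := Subgroup.finite_quotient_of_finiteIndex
  have key := finrank_add_orbCount_le (G := SL(2, ℤ)) (X := SL(2, ℤ) ⧸ Γ) ℂ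
    ((1 : SL(2, ℤ)) : SL(2, ℤ) ⧸ Γ) Γ (mem_iff_smul_one Γ) S (S * T) T
    (isOfFinOrder_iff_pow_eq_one.mpr ⟨4, by norm_num, S_pow_four⟩)
    (isOfFinOrder_iff_pow_eq_one.mpr ⟨6, by norm_num, ST_pow_six⟩)
    (parabolicHoms ℂ Γ ℂ) ?_ closure_S_ST (by group)
  · exact key
  · rintro φ hφ γ ⟨g, n, hγ⟩
    rw [mem_parabolicHoms_iff] at hφ
    apply hφ γ
    rw [hγ, trace_conj_T_pow]
    norm_num

theorem finrank_parabolicHoms_le [Γ.FiniteIndex] :
    finrank ℂ (parabolicHoms ℂ Γ ℂ) + orb Γ S + orb Γ (S * T) + orb Γ T ≤ Γ.index + 2 :=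
  (finite_and_finrank_parabolicHoms_le Γ).2

theorem finite_parabolicHoms [Γ.FiniteIndex] : Module.Finite ℂ (parabolicHoms ℂ Γ ℂ) :=
  (finite_and_finrank_parabolicHoms_le Γ).1

/-! #### Fixed point form (needs `-1 ∈ Γ`) -/

theorem S_sq : (S : SL(2, ℤ)) ^ 2 = -1 := by
  ext i j
  fin_cases i <;> fin_cases j <;>
    simp [pow_succ, coe_S, Matrix.mul_apply, Fin.sum_univ_two]

theorem ST_cube : ((S : SL(2, ℤ)) * T) ^ 3 = -1 := by
  ext i j
  fin_cases i <;> fin_cases j <;>
    simp [pow_succ, coe_S, coe_T, Matrix.mul_apply, Fin.sum_univ_two]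

theorem neg_one_smul_coset (hneg : -1 ∈ Γ) (x : SL(2, ℤ) ⧸ Γ) : (-1 : SL(2, ℤ)) • x = x := by
  induction x using QuotientGroup.induction_on with
  | H g =>
    rw [MulAction.Quotient.smul_coe, smul_eq_mul, QuotientGroup.eq]
    have : (-1 * g)⁻¹ * g = -1 := by
      have h1 : (-1 : SL(2, ℤ)) * g = g * (-1) := by rw [neg_one_mul, mul_neg_one]
      have h2 : (-1 : SL(2, ℤ))⁻¹ = -1 := by
        rw [inv_eq_iff_eq_inv, eq_inv_iff_mul_eq_one]
        simp
      rw [h1, _root_.mul_inv_rev, h2, mul_assoc, inv_mul_cancel, mul_one]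
    rw [this]
    exact hneg

theorem two_mul_orb_S [Γ.FiniteIndex] (hneg : -1 ∈ Γ) :
    2 * orb Γ S = Γ.index + Nat.card (MulAction.fixedBy (SL(2, ℤ) ⧸ Γ) S) := by
  haveI : Finite (SL(2, ℤ) ⧸ Γ) := Subgroup.finite_quotient_of_finiteIndex
  haveI : Fintype (SL(2, ℤ) ⧸ Γ) := Fintype.ofFinite _
  refine two_mul_orbCount (X := SL(2, ℤ) ⧸ Γ) S fun x => ?_
  rw [S_sq]
  exact neg_one_smul_coset Γ hneg x

theorem three_mul_orb_ST [Γ.FiniteIndex] (hneg : -1 ∈ Γ) :
    3 * orb Γ (S * T) = Γ.index + 2 * Nat.card (MulAction.fixedBy (SL(2, ℤ) ⧸ Γ) (S * T)) := by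
  haveI : Finite (SL(2, ℤ) ⧸ Γ) := Subgroup.finite_quotient_of_finiteIndex
  haveI : Fintype (SL(2, ℤ) ⧸ Γ) := Fintype.ofFinite _
  refine three_mul_orbCount (X := SL(2, ℤ) ⧸ Γ) (S * T) fun x => ?_
  rw [ST_cube]
  exact neg_one_smul_coset Γ hneg x

/-- The bound in "genus" form: with `ψ` the index, `ν₂`, `ν₃` the numbers of fixed cosets of `S`
and `S * T`, and `c` the number of `T`-orbits of cosets,
`dim Hom_par(Γ, ℂ) ≤ 2 (1 + ψ/12 - ν₂/4 - ν₃/3 - c/2)`. -/
theorem finrank_parabolicHoms_le_of_counts [Γ.FiniteIndex] (hneg : -1 ∈ Γ) {ψ ν₂ ν₃ c : ℕ}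
    (hψ : Γ.index = ψ) (h2 : Nat.card (MulAction.fixedBy (SL(2, ℤ) ⧸ Γ) S) = ν₂)
    (h3 : Nat.card (MulAction.fixedBy (SL(2, ℤ) ⧸ Γ) (S * T)) = ν₃) (hc : orb Γ T = c) :
    (finrank ℂ (parabolicHoms ℂ Γ ℂ) : ℚ) ≤
      2 * (1 + (ψ : ℚ) / 12 - (ν₂ : ℚ) / 4 - (ν₃ : ℚ) / 3 - (c : ℚ) / 2) := by
  have h := finrank_parabolicHoms_le Γ
  have hS := two_mul_orb_S Γ hneg
  have hU := three_mul_orb_ST Γ hneg
  rw [hψ, h2] at hS
  rw [hψ, h3] at hU
  rw [hψ, hc] at h
  have h' : ((finrank ℂ (parabolicHoms ℂ Γ ℂ) + orb Γ S + orb Γ (S * T) + c : ℕ) : ℚ) ≤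
      ((ψ + 2 : ℕ) : ℚ) := by exact_mod_cast h
  have hS' : (2 : ℚ) * (orb Γ S : ℚ) = (ψ : ℚ) + (ν₂ : ℚ) := by exact_mod_cast hS
  have hU' : (3 : ℚ) * (orb Γ (S * T) : ℚ) = (ψ : ℚ) + 2 * (ν₃ : ℚ) := by exact_mod_cast hU
  push_cast at h'
  linarith

end SL2Z

end Fermat.Agent.M2.ES.CohomBound

end
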