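import Fermat.Agent.M2.ES.Injective
import Fermat.Agent.M2.ES.CohomBound
import Fermat.Agent.M2.P1Gamma0
import Fermat.Prelude.Def_ModularCurve_GenusNumerics

/-!
# M2 / ES6: the Eichler–Shimura isomorphism (statement S21) from the dimension formula (S20)
and the coset combinatorics of `Γ₀(N)`
-/

set_option autoImplicit false

open UpperHalfPlane hiding I
open Function Complex Filter Topology CongruenceSubgroup
open scoped Real Manifold MatrixGroups ModularForm

namespace Fermat.Agent.M2.ES.S21Cond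

open ModularCurve ModularCurve.Period Fermat.Agent.M2.ES

variable (N : ℕ) [NeZero N]

local notation "S₂" => CuspForm (Gamma0 N) 2

/-- the space of weight-2 cusp forms is finite-dimensional (via the injective period map) -/
theorem finite_cuspForm_two : Module.Finite ℂ S₂ := by
  have : Module.Finite ℂ (parabolicHoms ℂ (Gamma0 N) ℂ) := CohomBound.finite_parabolicHoms _
  -- the injective map `S₂ × S₂ → parabolicHoms`
  let Φ : (S₂ × S₂) →ₗ[ℂ] (parabolicHoms ℂ (Gamma0 N) ℂ) :=
    (periodHomPair N).codRestrict _ fun p => range_periodHomPair_le N ⟨p, rfl⟩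
  have hΦ : Function.Injective Φ := fun p q h =>
    Injective.periodHomPair_injective N (congrArg Subtype.val h)
  have : Module.Finite ℂ (S₂ × S₂) := Module.Finite.of_injective Φ hΦ
  exact Module.Finite.of_surjective (LinearMap.fst ℂ S₂ S₂) LinearMap.fst_surjective

/-- S21 from a dimension inequality -/
theorem s21_of_finrank_le
    (h : Module.finrank ℂ (parabolicHoms ℂ (Gamma0 N) ℂ) ≤ 2 * Module.finrank ℂ S₂) :
    Function.Injective (periodHomPair N) ∧
      LinearMap.range (periodHomPair N) = parabolicHoms ℂ (Gamma0 N) ℂ := by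
  have hinj := Injective.periodHomPair_injective N
  refine ⟨hinj, ?_⟩
  have : Module.Finite ℂ (parabolicHoms ℂ (Gamma0 N) ℂ) := CohomBound.finite_parabolicHoms _
  have : Module.Finite ℂ S₂ := finite_cuspForm_two N
  refine Submodule.eq_of_le_of_finrank_le (range_periodHomPair_le N) ?_
  rw [LinearMap.finrank_range_of_inj hinj, Module.finrank_prod]
  omega

/-- S21 from S20 and the coset combinatorics of `Γ₀(N)` (index, fixed points of `S` and `ST`,
orbits of `T` on `SL(2, ℤ) ⧸ Γ₀(N)`). -/
theorem s21_of_s20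
    (h20 : (Module.finrank ℂ S₂ : ℚ) = ModularCurve.genusFormula N)
    (hidx : (Gamma0 N).index = dedekindPsi N)
    (hS : Nat.card (MulAction.fixedBy (SL(2, ℤ) ⧸ Gamma0 N) ModularGroup.S) = nuTwo N)
    (hU : Nat.card (MulAction.fixedBy (SL(2, ℤ) ⧸ Gamma0 N) (ModularGroup.S * ModularGroup.T))
      = nuThree N)
    (hT : CohomBound.orb (Gamma0 N) ModularGroup.T = cuspCount N) :
    Function.Injective (periodHomPair N) ∧
      LinearMap.range (periodHomPair N) = parabolicHoms ℂ (Gamma0 N) ℂ := by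
  refine s21_of_finrank_le N ?_
  have hneg : (-1 : SL(2, ℤ)) ∈ Gamma0 N := by
    rw [Gamma0_mem]; simp
  have h1 := CohomBound.finrank_parabolicHoms_le (Gamma0 N)
  have h2 := CohomBound.two_mul_orb_S (Gamma0 N) hneg
  have h3 := CohomBound.three_mul_orb_ST (Gamma0 N) hneg
  rw [hS] at h2
  rw [hU] at h3
  rw [hT] at h1
  rw [hidx] at h1 h2 h3
  unfold ModularCurve.genusFormula at h20
  have h1q : ((Module.finrank ℂ (parabolicHoms ℂ (Gamma0 N) ℂ) : ℕ) : ℚ)
      + (CohomBound.orb (Gamma0 N) ModularGroup.S : ℚ)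
      + (CohomBound.orb (Gamma0 N) (ModularGroup.S * ModularGroup.T) : ℚ) + (cuspCount N : ℚ)
      ≤ (dedekindPsi N : ℚ) + 2 := by exact_mod_cast h1
  have h2q : 2 * (CohomBound.orb (Gamma0 N) ModularGroup.S : ℚ)
      = (dedekindPsi N : ℚ) + (nuTwo N : ℚ) := by exact_mod_cast h2
  have h3q : 3 * (CohomBound.orb (Gamma0 N) (ModularGroup.S * ModularGroup.T) : ℚ)
      = (dedekindPsi N : ℚ) + 2 * (nuThree N : ℚ) := by exact_mod_cast h3
  have : ((Module.finrank ℂ (parabolicHoms ℂ (Gamma0 N) ℂ) : ℕ) : ℚ)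
      ≤ ((2 * Module.finrank ℂ S₂ : ℕ) : ℚ) := by
    push_cast
    rw [h20]
    linarith
  exact_mod_cast this

/-- **S20 ⇒ S21**: the Eichler–Shimura isomorphism follows from the dimension formula. -/
theorem s21_of_s20'
    (h20 : (Module.finrank ℂ S₂ : ℚ) = ModularCurve.genusFormula N) :
    Function.Injective (periodHomPair N) ∧
      LinearMap.range (periodHomPair N) = parabolicHoms ℂ (Gamma0 N) ℂ :=
  s21_of_s20 N h20 (P1.index_Gamma0 N (NeZero.ne N)) P1.card_fixedBy_S_coset
    P1.card_fixedBy_ST_coset P1.card_orbits_T_coset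

/-- The upper bound of the dimension formula, unconditionally:
`dim S₂(Γ₀(N)) ≤ genusFormula N`. -/
theorem finrank_cuspForm_two_le :
    (Module.finrank ℂ S₂ : ℚ) ≤ ModularCurve.genusFormula N := by
  have hneg : (-1 : SL(2, ℤ)) ∈ Gamma0 N := by
    rw [Gamma0_mem]; simp
  have h := CohomBound.finrank_parabolicHoms_le_of_counts (Gamma0 N) hneg
    (P1.index_Gamma0 N (NeZero.ne N)) P1.card_fixedBy_S_coset
    P1.card_fixedBy_ST_coset P1.card_orbits_T_coset
  have hinj := Injective.periodHomPair_injective N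
  have : Module.Finite ℂ (parabolicHoms ℂ (Gamma0 N) ℂ) := CohomBound.finite_parabolicHoms _
  have : Module.Finite ℂ S₂ := finite_cuspForm_two N
  have h2 : Module.finrank ℂ (LinearMap.range (periodHomPair N))
      ≤ Module.finrank ℂ (parabolicHoms ℂ (Gamma0 N) ℂ) :=
    Submodule.finrank_mono (range_periodHomPair_le N)
  rw [LinearMap.finrank_range_of_inj hinj, Module.finrank_prod] at h2
  have h3 : ((Module.finrank ℂ S₂ + Module.finrank ℂ S₂ : ℕ) : ℚ)
      ≤ (Module.finrank ℂ (parabolicHoms ℂ (Gamma0 N) ℂ) : ℚ) := by exact_mod_cast h2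
  unfold ModularCurve.genusFormula
  push_cast at h3
  linarith

end Fermat.Agent.M2.ES.S21Cond
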