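import Mathlib

/-!
# M2 / ES2: maximum modulus on `Γ₀(N)\ℍ*`

A holomorphic function `G` on the upper half plane whose *norm* is `Γ₀(N)`-invariant, and all of
whose `SL(2,ℤ)`-translates are `N`-periodic and bounded at `i∞`, is constant.
-/

set_option autoImplicit false

open UpperHalfPlane hiding I
open Complex Function Filter Topology
open scoped MatrixGroups Manifold ModularForm

namespace Fermat.Agent.M2.ES.MaxMod

local notation "𝕢" => Periodic.qParam

/-- the translate `z ↦ G (δ • z)` is the weight `0` slash of `G` -/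
theorem translate_eq_slash (G : ℍ → ℂ) (δ : SL(2, ℤ)) :
    (fun z : ℍ => G (δ • z)) = G ∣[(0 : ℤ)] δ := by
  funext z
  rw [ModularForm.SL_slash_apply]
  simp

theorem mdiff_translate {G : ℍ → ℂ} (hG : MDiff G) (δ : SL(2, ℤ)) :
    MDiff (fun z : ℍ => G (δ • z)) := by
  rw [translate_eq_slash, ModularForm.SL_slash]
  exact hG.slash _ _

/-- every point of the punctured unit disc is `𝕢 h τ` for some `τ : ℍ` -/
theorem exists_qParam_eq {h : ℝ} (hh : 0 < h) {q : ℂ} (hq : ‖q‖ < 1) (hq0 : q ≠ 0) :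
    ∃ τ : ℍ, 𝕢 h τ = q :=
  ⟨⟨Periodic.invQParam h q, Periodic.im_invQParam_pos_of_norm_lt_one hh hq hq0⟩,
    Periodic.qParam_right_inv hh.ne' hq0⟩

theorem const_of_norm_invariant {N : ℕ} [NeZero N] (G : ℍ → ℂ) (hG : MDiff G)
    (hinv : ∀ γ ∈ CongruenceSubgroup.Gamma0 N, ∀ z : ℍ, ‖G (γ • z)‖ = ‖G z‖)
    (hper : ∀ δ : SL(2, ℤ),
      Function.Periodic ((fun z : ℍ => G (δ • z)) ∘ UpperHalfPlane.ofComplex) (N : ℂ))
    (hbdd : ∀ δ : SL(2, ℤ), UpperHalfPlane.IsBoundedAtImInfty (fun z : ℍ => G (δ • z))) :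
    ∃ c : ℂ, ∀ z, G z = c := by
  classical
  have hN : (0 : ℝ) < (N : ℝ) := by exact_mod_cast Nat.pos_of_ne_zero (NeZero.ne N)
  -- periodicity with real period
  have hper' : ∀ δ : SL(2, ℤ),
      Function.Periodic ((fun z : ℍ => G (δ • z)) ∘ UpperHalfPlane.ofComplex) ((N : ℝ) : ℂ) := by
    intro δ
    have := hper δ
    simpa using this
  -- the cusp functions of the translates
  set g : SL(2, ℤ) → ℂ → ℂ := fun δ => UpperHalfPlane.cuspFunction (N : ℝ) (fun z : ℍ => G (δ • z))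
    with hg
  have hg_eq : ∀ (δ : SL(2, ℤ)) (τ : ℍ), g δ (𝕢 (N : ℝ) τ) = G (δ • τ) := fun δ τ =>
    UpperHalfPlane.eq_cuspFunction (f := fun z : ℍ => G (δ • z)) τ hN.ne' (hper' δ)
  have hg_diff : ∀ δ : SL(2, ℤ), DifferentiableOn ℂ (g δ) (Metric.ball 0 1) := fun δ =>
    UpperHalfPlane.differentiableOn_cuspFunction_ball hN (hper' δ) (mdiff_translate hG δ) (hbdd δ)
  -- finitely many cosets
  have : (CongruenceSubgroup.Gamma0 N).FiniteIndex := inferInstance
  have : Finite (SL(2, ℤ) ⧸ CongruenceSubgroup.Gamma0 N) :=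
    Subgroup.finite_quotient_of_finiteIndex
  let _ : Fintype (SL(2, ℤ) ⧸ CongruenceSubgroup.Gamma0 N) := Fintype.ofFinite _
  -- representatives
  set rep : SL(2, ℤ) ⧸ CongruenceSubgroup.Gamma0 N → SL(2, ℤ) := fun c => (Quotient.out c)⁻¹
    with hrep
  -- the radius
  set ρ : ℝ := Real.exp (-Real.pi / N) with hρ
  have hρ1 : ρ < 1 := by
    rw [hρ, Real.exp_lt_one_iff]
    exact div_neg_of_neg_of_pos (neg_neg_of_pos Real.pi_pos) hN
  have hρ0 : 0 < ρ := Real.exp_pos _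
  -- maximise over the compact set `cosets × closedBall 0 ρ`
  have hcont : ∀ c : SL(2, ℤ) ⧸ CongruenceSubgroup.Gamma0 N,
      ContinuousOn (fun q => ‖g (rep c) q‖) (Metric.closedBall 0 ρ) := fun c =>
    ((hg_diff (rep c)).continuousOn.mono (Metric.closedBall_subset_ball hρ1)).norm
  have hmax : ∀ c : SL(2, ℤ) ⧸ CongruenceSubgroup.Gamma0 N,
      ∃ q ∈ Metric.closedBall (0 : ℂ) ρ, ∀ q' ∈ Metric.closedBall (0 : ℂ) ρ,
        ‖g (rep c) q'‖ ≤ ‖g (rep c) q‖ := fun c =>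
    (isCompact_closedBall (0 : ℂ) ρ).exists_isMaxOn
      ⟨0, Metric.mem_closedBall_self hρ0.le⟩ (hcont c)
  choose qmax hqmax_mem hqmax using hmax
  obtain ⟨c₀, -, hc₀⟩ := Finset.exists_max_image (Finset.univ :
    Finset (SL(2, ℤ) ⧸ CongruenceSubgroup.Gamma0 N)) (fun c => ‖g (rep c) (qmax c)‖)
    ⟨(QuotientGroup.mk 1 : SL(2, ℤ) ⧸ CongruenceSubgroup.Gamma0 N), Finset.mem_univ _⟩
  set M : ℝ := ‖g (rep c₀) (qmax c₀)‖ with hM
  -- every value of `‖G‖` is bounded by `M`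
  have hbound : ∀ z : ℍ, ‖G z‖ ≤ M := by
    intro z
    obtain ⟨γ, hγ⟩ := ModularGroup.exists_one_half_le_im_smul z
    set w : ℍ := γ • z with hw
    set c : SL(2, ℤ) ⧸ CongruenceSubgroup.Gamma0 N := QuotientGroup.mk γ with hc
    -- `γ = s * γ''` with `s = out c`, `γ'' ∈ Γ₀(N)`
    have hmem : (Quotient.out c)⁻¹ * γ ∈ CongruenceSubgroup.Gamma0 N := by
      rw [← QuotientGroup.eq, hc]
      exact QuotientGroup.out_eq' _
    have hz : z = ((Quotient.out c)⁻¹ * γ)⁻¹ • (rep c • w) := by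
      rw [hrep, hw, ← mul_smul, ← mul_smul]
      simp [mul_assoc]
    have h1 : ‖G z‖ = ‖G (rep c • w)‖ := by
      conv_lhs => rw [hz]
      exact hinv _ (inv_mem hmem) _
    have h2 : ‖𝕢 (N : ℝ) w‖ ≤ ρ := by
      rw [Periodic.norm_qParam, hρ]
      apply Real.exp_le_exp.mpr
      have hw2 : (1 : ℝ) / 2 ≤ w.im := hγ
      rw [div_le_div_iff_of_pos_right hN]
      have : (w : ℂ).im = w.im := rfl
      rw [this]
      nlinarith [Real.pi_pos]
    rw [h1, ← hg_eq (rep c) w]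
    calc ‖g (rep c) (𝕢 (N : ℝ) w)‖ ≤ ‖g (rep c) (qmax c)‖ :=
          hqmax c _ (by simpa [Metric.mem_closedBall, dist_zero_right] using h2)
      _ ≤ M := hc₀ c (Finset.mem_univ _)
  -- `g (rep c₀)` attains its maximum on the open unit ball at `qmax c₀`
  have hball : ∀ q ∈ Metric.ball (0 : ℂ) 1, ‖g (rep c₀) q‖ ≤ M := by
    intro q hq
    rw [mem_ball_zero_iff] at hq
    by_cases hq0 : q = 0
    · subst hq0
      exact hqmax c₀ 0 (Metric.mem_closedBall_self hρ0.le)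
    · obtain ⟨τ, rfl⟩ := exists_qParam_eq hN hq hq0
      rw [hg_eq]
      exact hbound _
  have hq₀ball : qmax c₀ ∈ Metric.ball (0 : ℂ) 1 :=
    Metric.closedBall_subset_ball hρ1 (hqmax_mem c₀)
  have hconst : Set.EqOn (g (rep c₀)) (Function.const ℂ (g (rep c₀) (qmax c₀)))
      (Metric.ball (0 : ℂ) 1) :=
    Complex.eqOn_of_isPreconnected_of_isMaxOn_norm (convex_ball (0 : ℂ) 1).isPreconnected
      Metric.isOpen_ball (hg_diff (rep c₀)) hq₀ball (fun q hq => hball q hq)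
  refine ⟨g (rep c₀) (qmax c₀), fun z => ?_⟩
  have hz : z = rep c₀ • ((rep c₀)⁻¹ • z) := by rw [← mul_smul]; simp
  rw [hz, ← hg_eq]
  exact hconst (mem_ball_zero_iff.mpr (Periodic.norm_qParam_lt_one hN (im_pos _)))

end Fermat.Agent.M2.ES.MaxMod
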