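import Fermat.Agent.M2.ES.Prim
import Fermat.Agent.M2.ES.Reflect
import Fermat.Agent.M2.ES.MaxMod

/-!
# M2 / ES4: injectivity of the Eichler–Shimura pair map `periodHomPair`
-/

set_option autoImplicit false

open UpperHalfPlane hiding I
open Function Complex Filter Topology CongruenceSubgroup
open scoped Real Manifold MatrixGroups ModularForm
open Derivative

namespace Fermat.Agent.M2.ES.Injective

open Fermat.Agent.S22 ModularCurve ModularCurve.Period Fermat.Agent.M2.ES
open Fermat.Agent.M2.ES.Reflect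

local notation "conj" => starRingEnd ℂ

section general

/-- A holomorphic function on `ℍ` whose real part is `Γ₀(N)`-invariant and which is, at every
cusp, a decaying periodic function plus a constant, has vanishing derivative. -/
theorem deriv_eq_zero_of_re_invariant {N : ℕ} [NeZero N] {φ φ' : ℍ → ℂ}
    (hφ : ∀ τ : ℍ, HasDerivAt (φ ∘ ofComplex) (φ' τ) τ)
    (hinv : ∀ γ ∈ Gamma0 N, ∀ z : ℍ, (φ (γ • z)).re = (φ z).re)
    (hcusp : ∀ δ : SL(2, ℤ), ∃ (E : ℍ → ℂ) (L : ℂ), Periodic (E ∘ ofComplex) (N : ℝ) ∧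
      IsZeroAtImInfty E ∧ ∀ z : ℍ, φ (δ • z) = E z + L) (τ : ℍ) : φ' τ = 0 := by
  set G : ℍ → ℂ := fun z => cexp (φ z) with hGdef
  have hφm : MDiff φ := mdiff_of_hasDerivAt hφ
  have hG : MDiff G := by
    rw [UpperHalfPlane.mdifferentiable_iff] at hφm ⊢
    exact hφm.cexp
  obtain ⟨c, hc⟩ := MaxMod.const_of_norm_invariant (N := N) G hG
    (fun γ hγ z => by simp only [hGdef, Complex.norm_exp, hinv γ hγ z])
    (fun δ => by
      obtain ⟨E, L, hper, -, hEL⟩ := hcusp δ
      have : ((fun z : ℍ => G (δ • z)) ∘ ofComplex) = (fun x => cexp (x + L)) ∘ (E ∘ ofComplex) := by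
        ext w; simp only [hGdef, Function.comp_apply, hEL]
      rw [this]
      have hper' : Periodic (E ∘ ofComplex) (N : ℂ) := by
        have : ((N : ℝ) : ℂ) = (N : ℂ) := by push_cast; rfl
        rw [← this]; exact hper
      exact hper'.comp _)
    (fun δ => by
      obtain ⟨E, L, -, hE0, hEL⟩ := hcusp δ
      have : (fun z : ℍ => G (δ • z)) = fun z => cexp (E z + L) := by
        ext z; simp only [hGdef, hEL]
      rw [this]
      have ht : Tendsto (fun z : ℍ => cexp (E z + L)) atImInfty (𝓝 (cexp (0 + L))) :=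
        (Complex.continuous_exp.tendsto _).comp
          ((hE0 : Tendsto E atImInfty (𝓝 0)).add_const L)
      exact ht.isBigO_one ℝ)
  have h1 : HasDerivAt (G ∘ ofComplex) (cexp (φ τ) * φ' τ) τ := by
    have := (hφ τ).cexp
    simp only [Function.comp_apply, ofComplex_apply] at this
    exact this
  have h2 : HasDerivAt (G ∘ ofComplex) 0 τ := by
    have : G ∘ ofComplex = fun _ => c := by ext w; simp [hc]
    rw [this]; exact hasDerivAt_const _ _
  have := h1.unique h2
  exact (mul_eq_zero.mp this).resolve_left (Complex.exp_ne_zero _)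

end general

section main

variable (N : ℕ) [NeZero N]

local notation "S₂" => CuspForm (Gamma0 N) 2

/-- the reflected primitive `z ↦ conj (prim v (-conj z))`, a holomorphic function -/
noncomputable def rprim (v : S₂) : ℍ → ℂ := fun z => conj (prim N v (refl z))

theorem hasDerivAt_rprim (v : S₂) (τ : ℍ) :
    HasDerivAt (rprim N v ∘ ofComplex) (-conj (v (refl τ))) τ :=
  hasDerivAt_conj_comp_refl (hasDerivAt_prim N v) τ

theorem rprim_smul (v : S₂) (γ : Gamma0 N) (z : ℍ) :
    rprim N v ((γ : SL(2, ℤ)) • z) - rprim N v z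
      = conj (pml N v (Additive.ofMul (jConjGamma0 N γ))) := by
  unfold rprim
  rw [refl_smul, ← map_sub, pml_apply N v (jConjGamma0 N γ) (refl z)]
  rfl

theorem rprim_smul_SL (v : S₂) (δ : SL(2, ℤ)) :
    ∃ (E : ℍ → ℂ) (L : ℂ), Periodic (E ∘ ofComplex) (N : ℝ) ∧ IsZeroAtImInfty E ∧
      ∀ z : ℍ, rprim N v (δ • z) = E z + L := by
  obtain ⟨E', L', -, hper, hE0, hEL⟩ := prim_smul_SL N v (jConjSL δ)
  refine ⟨fun z => conj (E' (refl z)), conj L', ?_, ?_, fun z => ?_⟩
  · intro w
    simp only [Function.comp_apply]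
    by_cases hw : 0 < w.im
    · have hw' : 0 < (w + ((N : ℝ) : ℂ)).im := by simpa using hw
      rw [ofComplex_apply_of_im_pos hw, ofComplex_apply_of_im_pos hw']
      have e : (⟨w + ((N : ℝ) : ℂ), hw'⟩ : ℍ) = (N : ℝ) +ᵥ (⟨w, hw⟩ : ℍ) := by
        ext; simp [add_comm]
      rw [e, refl_vadd]
      congr 1
      -- periodicity of `E'` at the point `refl ⟨w, hw⟩ - N`
      have hp := hper (((-(N : ℝ)) +ᵥ Reflect.refl ⟨w, hw⟩ : ℍ) : ℂ)
      simp only [Function.comp_apply] at hp
      have e2 : ofComplex ((((-(N : ℝ)) +ᵥ Reflect.refl ⟨w, hw⟩ : ℍ) : ℂ) + ((N : ℝ) : ℂ))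
          = Reflect.refl ⟨w, hw⟩ := by
        have : ((((-(N : ℝ)) +ᵥ Reflect.refl ⟨w, hw⟩ : ℍ) : ℂ) + ((N : ℝ) : ℂ))
            = ((Reflect.refl ⟨w, hw⟩ : ℍ) : ℂ) := by
          simp [UpperHalfPlane.coe_vadd]
        rw [this, ofComplex_apply]
      rw [e2, ofComplex_apply] at hp
      exact hp.symm
    · have hw' : ¬ 0 < (w + ((N : ℝ) : ℂ)).im := by simpa using hw
      rw [ofComplex_apply_of_im_nonpos (not_lt.mp hw),
        ofComplex_apply_of_im_nonpos (not_lt.mp hw')]
  · have h1 : Tendsto (fun z : ℍ => E' (refl z)) atImInfty (𝓝 0) :=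
      (hE0 : Tendsto E' atImInfty (𝓝 0)).comp tendsto_refl_atImInfty
    have h2 := (Complex.continuous_conj.tendsto 0).comp h1
    simpa [IsZeroAtImInfty, ZeroAtFilter, Function.comp_def] using h2
  · unfold rprim
    rw [refl_smul, hEL, map_add]

/-- injectivity of the Eichler–Shimura pair map -/
theorem periodHomPair_injective : Function.Injective (periodHomPair N) := by
  rw [← LinearMap.ker_eq_bot, LinearMap.ker_eq_bot']
  rintro ⟨f, g⟩ h
  rw [periodHomPair_eq, LinearMap.coprod_apply] at h
  simp only [LinearMap.comp_apply, LinearMap.add_apply, LinearMap.sub_apply,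
    LinearMap.id_apply] at h
  set u : S₂ := f + g with hu
  set v : S₂ := f - g with hv
  -- the period relation
  have hrel : ∀ γ : Gamma0 N, pml N u (Additive.ofMul γ)
      + pml N v (Additive.ofMul (jConjGamma0 N γ)) = 0 := by
    intro γ
    have := congrArg (fun ψ : Additive (Gamma0 N) →+ ℂ => ψ (Additive.ofMul γ)) h
    simp only [AddMonoidHom.add_apply, AddMonoidHom.sub_apply, charInvolution_apply,
      AddMonoidHom.zero_apply, toMul_ofMul] at this
    rw [hu, hv, map_add, map_sub, AddMonoidHom.add_apply, AddMonoidHom.sub_apply]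
    linear_combination this
  -- the two holomorphic functions
  have key1 : ∀ τ : ℍ, u τ + -conj (v (refl τ)) = 0 := by
    intro τ
    refine deriv_eq_zero_of_re_invariant (N := N)
      (φ := fun z => prim N u z + rprim N v z)
      (φ' := fun τ => u τ + -conj (v (refl τ))) (fun τ => ?_) (fun γ hγ z => ?_) (fun δ => ?_) τ
    · exact (hasDerivAt_prim N u τ).add (hasDerivAt_rprim N v τ)
    · have h1 := pml_apply N u ⟨γ, hγ⟩ z
      have h2 := rprim_smul N v ⟨γ, hγ⟩ z
      have h3 := hrel ⟨γ, hγ⟩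
      simp only at h1 h2
      have : prim N u (γ • z) + rprim N v (γ • z) = prim N u z + rprim N v z
          + (pml N u (Additive.ofMul ⟨γ, hγ⟩)
            + conj (pml N v (Additive.ofMul (jConjGamma0 N ⟨γ, hγ⟩)))) := by
        rw [h1, ← h2]; ring
      rw [this, Complex.add_re, Complex.add_re (pml N u _), Complex.conj_re,
        ← Complex.add_re, h3]
      simp
    · obtain ⟨E1, L1, -, hper1, hE1, hEL1⟩ := prim_smul_SL N u δ
      obtain ⟨E2, L2, hper2, hE2, hEL2⟩ := rprim_smul_SL N v δ
      refine ⟨fun z => E1 z + E2 z, L1 + L2, ?_, hE1.add hE2, fun z => ?_⟩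
      · exact hper1.add hper2
      · simp only [hEL1, hEL2]; ring
  have key2 : ∀ τ : ℍ, -I * (u τ - -conj (v (refl τ))) = 0 := by
    intro τ
    refine deriv_eq_zero_of_re_invariant (N := N)
      (φ := fun z => -I * (prim N u z - rprim N v z))
      (φ' := fun τ => -I * (u τ - -conj (v (refl τ)))) (fun τ => ?_) (fun γ hγ z => ?_)
      (fun δ => ?_) τ
    · exact ((hasDerivAt_prim N u τ).sub (hasDerivAt_rprim N v τ)).const_mul (-I)
    · have h1 := pml_apply N u ⟨γ, hγ⟩ z
      have h2 := rprim_smul N v ⟨γ, hγ⟩ z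
      have h3 := hrel ⟨γ, hγ⟩
      simp only at h1 h2
      have : -I * (prim N u (γ • z) - rprim N v (γ • z)) = -I * (prim N u z - rprim N v z)
          + -I * (pml N u (Additive.ofMul ⟨γ, hγ⟩)
            - conj (pml N v (Additive.ofMul (jConjGamma0 N ⟨γ, hγ⟩)))) := by
        rw [h1, ← h2]; ring
      rw [this, Complex.add_re]
      have h3im := congrArg Complex.im h3
      simp only [Complex.add_im, Complex.zero_im] at h3im
      have : (-I * (pml N u (Additive.ofMul ⟨γ, hγ⟩)
            - conj (pml N v (Additive.ofMul (jConjGamma0 N ⟨γ, hγ⟩))))).re = 0 := by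
        simp only [Complex.mul_re, Complex.neg_re, Complex.I_re, Complex.neg_im, Complex.I_im,
          Complex.sub_re, Complex.sub_im, Complex.conj_re, Complex.conj_im]
        linarith
      rw [this, add_zero]
    · obtain ⟨E1, L1, -, hper1, hE1, hEL1⟩ := prim_smul_SL N u δ
      obtain ⟨E2, L2, hper2, hE2, hEL2⟩ := rprim_smul_SL N v δ
      refine ⟨fun z => -I * (E1 z - E2 z), -I * (L1 - L2), ?_, ?_, fun z => ?_⟩
      · intro w
        have a := hper1 w
        have b := hper2 w
        simp only [Function.comp_apply] at a b ⊢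
        rw [a, b]
      · have := ((hE1 : Tendsto E1 atImInfty (𝓝 0)).sub
          (hE2 : Tendsto E2 atImInfty (𝓝 0))).const_mul (-I)
        simpa [IsZeroAtImInfty, ZeroAtFilter] using this
      · simp only [hEL1, hEL2]; ring
  have hu0 : ∀ τ : ℍ, u τ = 0 := by
    intro τ
    have k1 := key1 τ
    have k2 := (mul_eq_zero.mp (key2 τ)).resolve_left (neg_ne_zero.mpr Complex.I_ne_zero)
    linear_combination (1 / 2 : ℂ) * k1 + (1 / 2 : ℂ) * k2
  have hv0 : ∀ τ : ℍ, v τ = 0 := by
    intro τ
    have k1 := key1 (refl τ)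
    have k2 := (mul_eq_zero.mp (key2 (refl τ))).resolve_left
      (neg_ne_zero.mpr Complex.I_ne_zero)
    rw [refl_refl] at k1 k2
    have : conj (v τ) = 0 := by linear_combination (-1 / 2 : ℂ) * k1 + (1 / 2 : ℂ) * k2
    simpa using this
  have hu' : u = 0 := by ext τ; simpa using hu0 τ
  have hv' : v = 0 := by ext τ; simpa using hv0 τ
  have hf : f = 0 := by
    have : (2 : ℂ) • f = 0 := by
      have : (2 : ℂ) • f = u + v := by rw [hu, hv, two_smul]; abel
      rw [this, hu', hv', add_zero]
    exact (smul_eq_zero.mp this).resolve_left two_ne_zero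
  have hg : g = 0 := by
    have : g = u - f := by rw [hu]; abel
    rw [this, hu', hf, sub_zero]
  rw [hf, hg]; rfl

end main

end Fermat.Agent.M2.ES.Injective
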